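/-
Program C (S55), package C9b, layer 1a (helper23): proof of `H70.GSChaseStatement`
(the six-term chase for `0 → E_S → Q_S^× → P_S → 0`), Mathlib only.
Helper lemmas on `H70.IsPPrimary` live in the sub-namespace `Chase`.
-/
import Mathlib
import Fermat.Agent.S55.H70.GSAbstract

set_option autoImplicit false

namespace Fermat.Agent.S55.H23

open Fermat.Agent.S55.H70

namespace Chase

variable {p : ℕ} {A B : Type*} [AddCommGroup A] [AddCommGroup B]

theorem pprim_zero : IsPPrimary p (0 : A) := ⟨0, by simp⟩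

theorem pprim_of_smul_eq_zero {x : A} (h : p • x = 0) : IsPPrimary p x :=
  ⟨1, by rw [pow_one]; exact h⟩

theorem pprim_add {x y : A} (hx : IsPPrimary p x) (hy : IsPPrimary p y) :
    IsPPrimary p (x + y) := by
  obtain ⟨k, hk⟩ := hx
  obtain ⟨l, hl⟩ := hy
  refine ⟨k + l, ?_⟩
  have h1 : p ^ (k + l) • x = 0 := by
    rw [pow_add, mul_comm, mul_smul, hk, smul_zero]
  have h2 : p ^ (k + l) • y = 0 := by
    rw [pow_add, mul_smul, hl, smul_zero]
  rw [smul_add, h1, h2, add_zero]

theorem pprim_neg {x : A} (hx : IsPPrimary p x) : IsPPrimary p (-x) := by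
  obtain ⟨k, hk⟩ := hx
  exact ⟨k, by rw [smul_neg, hk, neg_zero]⟩

theorem pprim_sub {x y : A} (hx : IsPPrimary p x) (hy : IsPPrimary p y) :
    IsPPrimary p (x - y) := by
  rw [sub_eq_add_neg]
  exact pprim_add hx (pprim_neg hy)

theorem pprim_map (f : A →+ B) {x : A} (hx : IsPPrimary p x) : IsPPrimary p (f x) := by
  obtain ⟨k, hk⟩ := hx
  exact ⟨k, by rw [← map_nsmul, hk, map_zero]⟩

theorem pprim_zsmul (a : ℤ) {x : A} (hx : IsPPrimary p x) : IsPPrimary p (a • x) := by
  obtain ⟨k, hk⟩ := hx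
  exact ⟨k, by rw [smul_comm, hk, smul_zero]⟩

theorem pprim_nsmul (a : ℕ) {x : A} (hx : IsPPrimary p x) : IsPPrimary p (a • x) := by
  obtain ⟨k, hk⟩ := hx
  exact ⟨k, by rw [smul_comm, hk, smul_zero]⟩

theorem pprim_sum {ι : Type*} (s : Finset ι) (f : ι → A) (h : ∀ i ∈ s, IsPPrimary p (f i)) :
    IsPPrimary p (∑ i ∈ s, f i) := by
  classical
  induction s using Finset.induction_on with
  | empty => simpa using (pprim_zero : IsPPrimary p (0 : A))
  | insert a s ha ih =>
    rw [Finset.sum_insert ha]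
    exact pprim_add (h a (Finset.mem_insert_self a s))
      (ih fun i hi => h i (Finset.mem_insert_of_mem hi))

/-- An element killed by a power of `p` and by some `m` prime to `p` is zero. -/
theorem eq_zero_of_pprim_of_coprime (hp : p.Prime) {x : A} (hx : IsPPrimary p x) {m : ℕ}
    (hm : ¬ p ∣ m) (hmx : m • x = 0) : x = 0 := by
  obtain ⟨k, hk⟩ := hx
  have hcop : Nat.Coprime (p ^ k) m :=
    Nat.Coprime.pow_left k ((Nat.Prime.coprime_iff_not_dvd hp).2 hm)
  have hI : IsCoprime ((p ^ k : ℕ) : ℤ) (m : ℤ) := Nat.isCoprime_iff_coprime.2 hcop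
  obtain ⟨u, w, huw⟩ := hI
  have h1 : (1 : ℤ) • x = 0 := by
    rw [← huw, add_smul, mul_smul, mul_smul, natCast_zsmul, natCast_zsmul, hk, hmx, smul_zero,
      smul_zero, add_zero]
  simpa using h1

/-- Decomposition of a torsion element into its `p`-primary part `a • x` and a part `b • x`
killed by some `m` prime to `p`, with `a + b = 1`. -/
theorem exists_decomp (hp : p.Prime) {x : A} {n : ℕ} (hn : 0 < n) (hx : n • x = 0) :
    ∃ (a b : ℤ) (m : ℕ), a + b = 1 ∧ IsPPrimary p (a • x) ∧ ¬ p ∣ m ∧ m • (b • x) = 0 := by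
  obtain ⟨k, m, hm, rfl⟩ := Nat.exists_eq_pow_mul_and_not_dvd hn.ne' p hp.ne_one
  have hcop : Nat.Coprime (p ^ k) m :=
    Nat.Coprime.pow_left k ((Nat.Prime.coprime_iff_not_dvd hp).2 hm)
  have hI : IsCoprime ((p ^ k : ℕ) : ℤ) (m : ℤ) := Nat.isCoprime_iff_coprime.2 hcop
  obtain ⟨u, w, huw⟩ := hI
  refine ⟨w * m, u * ((p ^ k : ℕ) : ℤ), m, by rw [add_comm]; exact huw, ⟨k, ?_⟩, hm, ?_⟩
  · rw [← natCast_zsmul, ← mul_smul]
    have h : ((p ^ k : ℕ) : ℤ) * (w * m) = w * ((p ^ k * m : ℕ) : ℤ) := by push_cast; ring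
    rw [h, mul_smul, natCast_zsmul, hx, smul_zero]
  · rw [← natCast_zsmul, ← mul_smul]
    have h : (m : ℤ) * (u * ((p ^ k : ℕ) : ℤ)) = u * ((p ^ k * m : ℕ) : ℤ) := by
      push_cast; ring
    rw [h, mul_smul, natCast_zsmul, hx, smul_zero]

/-- `x = a • x + b • x` when `a + b = 1`. -/
theorem eq_add_of_add_eq_one {a b : ℤ} (hab : a + b = 1) (x : A) : x = a • x + b • x := by
  rw [← add_smul, hab, one_smul]

end Chase

/-- **C9b layer 1a**: the chase for `0 → E_S → Q_S^× → P_S → 0`. -/
theorem gsChase : GSChaseStatement := by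
  intro p hp T _ P1 E2 Q2 P2 E3 Q3 _ _ _ _ _ _ d1 i2 π2 d2 i3 hE2 hQ2 hQ2' hP2' hE3 htP1 htE2
    htP2 V VS hVS inv lam hB1 hB2 hB3 hB4 hPa hPb hPbfin hlam
  classical
  -- invariants of `i2 x` outside `VS` vanish
  have hout : ∀ (x : E2) (v : V), v ∉ VS → inv v (i2 x) = 0 := by
    intro x v hv
    rw [← hlam v hv, hQ2', map_zero]
  refine ⟨?_, ?_, ?_, ?_⟩
  · -- (ES1)
    intro x hx hinv
    have h0 : i2 x = 0 := by
      apply hB1 _ (Chase.pprim_map i2 hx)
      intro v
      by_cases hv : v ∈ VS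
      · exact hinv v hv
      · exact hout x v hv
    obtain ⟨c, rfl⟩ := hE2 x h0
    obtain ⟨n, hn, hnc⟩ := htP1 c
    obtain ⟨a, b, m, hab, hpa, hm, hmb⟩ := Chase.exists_decomp hp hn hnc
    have ha0 : a • c = 0 := hPa _ hpa
    have hc : c = b • c := by
      have h := Chase.eq_add_of_add_eq_one hab c
      rwa [ha0, zero_add] at h
    apply Chase.eq_zero_of_pprim_of_coprime hp hx hm
    rw [← map_nsmul, hc, hmb, map_zero]
  · -- (ES2)
    intro t ht hsum
    obtain ⟨y, hy, hyinv⟩ := hB3 (fun v => if v ∈ VS then t v else 0) VS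
      (fun v => by
        by_cases hv : v ∈ VS
        · simpa [hv] using ht v
        · simpa [hv] using (Chase.pprim_zero : IsPPrimary p (0 : T)))
      (fun v hv => by simp [hv])
      (by rw [← hsum]; exact Finset.sum_congr rfl fun v hv => by simp [hv])
    have hπ : π2 y = 0 := by
      apply hPb _ (Chase.pprim_map π2 hy)
      intro v hv
      rw [hlam v hv, hyinv v]
      simp [hv]
    obtain ⟨x, rfl⟩ := hQ2 y hπ
    obtain ⟨n, hn, hnx⟩ := htE2 x
    obtain ⟨a, b, m, hab, hpa, hm, hmb⟩ := Chase.exists_decomp hp hn hnx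
    have hb0 : i2 (b • x) = 0 := by
      apply Chase.eq_zero_of_pprim_of_coprime hp _ hm
      · rw [← map_nsmul, hmb, map_zero]
      · rw [map_zsmul]
        exact Chase.pprim_zsmul b hy
    have hx : i2 (a • x) = i2 x := by
      have h := congrArg i2 (Chase.eq_add_of_add_eq_one hab x)
      rw [map_add, hb0, add_zero] at h
      exact h.symm
    refine ⟨a • x, hpa, fun v hv => ?_⟩
    rw [hx, hyinv v]
    simp [hv]
  · -- (ES3)
    intro x
    exact hB2 _ (fun v hv => hout x v hv)
  · -- (ES4)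
    intro x hx
    have h0 : i3 x = 0 := hB4 _ (Chase.pprim_map i3 hx)
    obtain ⟨c, rfl⟩ := hE3 x h0
    obtain ⟨n, hn, hnc⟩ := htP2 c
    obtain ⟨a, b, m, hab, hpa, hm, hmb⟩ := Chase.exists_decomp hp hn hnc
    have hsplit : d2 c = d2 (a • c) + d2 (b • c) := by
      have h := congrArg d2 (Chase.eq_add_of_add_eq_one hab c)
      rwa [map_add] at h
    have hb0 : d2 (b • c) = 0 := by
      apply Chase.eq_zero_of_pprim_of_coprime hp _ hm
      · rw [← map_nsmul, hmb, map_zero]
      · have h : d2 (b • c) = d2 c - d2 (a • c) := by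
          rw [hsplit, add_sub_cancel_left]
        rw [h]
        exact Chase.pprim_sub hx (Chase.pprim_map d2 hpa)
    rw [hsplit, hb0, add_zero]
    -- now `c' := a • c` is `p`-primary
    generalize a • c = c' at hpa ⊢
    obtain ⟨W, hW⟩ := hPbfin c'
    obtain ⟨v0, hv0⟩ := hVS
    set s : T := ∑ w ∈ W \ VS, lam w c' with hs
    have hsprim : IsPPrimary p s :=
      Chase.pprim_sum _ _ fun w _ => Chase.pprim_map (lam w) hpa
    obtain ⟨y, hy, hyinv⟩ := hB3
      (fun v => if v ∈ VS then (if v = v0 then -s else 0) else lam v c') (W ∪ VS)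
      (fun v => by
        by_cases hv : v ∈ VS
        · by_cases hv' : v = v0
          · simpa [hv, hv', hv0] using Chase.pprim_neg hsprim
          · simpa [hv, hv'] using (Chase.pprim_zero : IsPPrimary p (0 : T))
        · simpa [hv] using Chase.pprim_map (lam v) hpa)
      (fun v hv => by
        rw [Finset.mem_union, not_or] at hv
        simp only [hv.2, if_false]
        exact hW v hv.1)
      (by
        rw [← Finset.sdiff_union_self_eq_union, Finset.sum_union Finset.sdiff_disjoint]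
        have h1 : ∑ v ∈ W \ VS, (if v ∈ VS then (if v = v0 then -s else 0) else lam v c') = s := by
          rw [hs]
          refine Finset.sum_congr rfl fun v hv => ?_
          rw [Finset.mem_sdiff] at hv
          simp [hv.2]
        have h2 : ∑ v ∈ VS, (if v ∈ VS then (if v = v0 then -s else 0) else lam v c') = -s := by
          have h3 : ∑ v ∈ VS, (if v ∈ VS then (if v = v0 then -s else 0) else lam v c')
              = ∑ v ∈ VS, (if v = v0 then -s else 0) :=
            Finset.sum_congr rfl fun v hv => by simp [hv]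
          rw [h3, Finset.sum_ite_eq' VS v0]
          simp [hv0]
        rw [h1, h2, add_neg_cancel])
    have hc' : c' - π2 y = 0 := by
      apply hPb _ (Chase.pprim_sub hpa (Chase.pprim_map π2 hy))
      intro v hv
      rw [map_sub, hlam v hv, hyinv v]
      simp [hv]
    rw [sub_eq_zero.1 hc', hP2']

end Fermat.Agent.S55.H23
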