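/-
Program C (S55), package C9b, layer 1b (helper23): proof of `H70.KummerChaseStatement`
(the chase for the Kummer sequence `0 → μ_p → E_S → E_S → 0`), Mathlib only.
-/
import Mathlib
import Fermat.Agent.S55.H70.GSAbstract
import Fermat.Agent.S55.H23.GSChase

set_option autoImplicit false

namespace Fermat.Agent.S55.H23

open Fermat.Agent.S55.H70

namespace Chase

variable {p : ℕ} {A : Type*} [AddCommGroup A]

/-- An element killed by some `m` prime to `p` is a multiple of `p`. -/
theorem exists_eq_nsmul_of_coprime (hp : p.Prime) {x : A} {m : ℕ} (hm : ¬ p ∣ m)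
    (hmx : m • x = 0) : ∃ x' : A, x = p • x' := by
  have hcop : Nat.Coprime p m := (Nat.Prime.coprime_iff_not_dvd hp).2 hm
  obtain ⟨u, w, huw⟩ := Nat.isCoprime_iff_coprime.2 hcop
  refine ⟨u • x, ?_⟩
  have h : (1 : ℤ) • x = (u * (p : ℤ)) • x + (w * (m : ℤ)) • x := by rw [← add_smul, huw]
  rw [one_smul, mul_smul w, natCast_zsmul, hmx, smul_zero, add_zero, mul_comm, mul_smul,
    natCast_zsmul] at h
  exact h

end Chase

/-- **C9b layer 1b**: the chase for the Kummer sequence `0 → μ_p → E_S → E_S → 0`. -/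
theorem kummerChase : KummerChaseStatement := by
  intro p hp T _ hdiv E1 M2 E2 M3 E3 _ _ _ _ _ δ1 j2 δ2 j3 hM2 hE2 hE2' hM3 hpM2 hpM3 htE2
    VS _ hne I ES1 ES2 ES3 ES4
  classical
  refine ⟨?_, ?_, ?_, ?_⟩
  · -- (K1)
    intro x
    have h0 : j3 x = 0 := ES4 _ (Chase.pprim_map j3 (Chase.pprim_of_smul_eq_zero (hpM3 x)))
    obtain ⟨e, rfl⟩ := hM3 x h0
    obtain ⟨n, hn, hne'⟩ := htE2 e
    obtain ⟨a, b, m, hab, hpa, hm, hmb⟩ := Chase.exists_decomp hp hn hne'
    have hsplit : δ2 e = δ2 (a • e) + δ2 (b • e) := by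
      have h := congrArg δ2 (Chase.eq_add_of_add_eq_one hab e)
      rwa [map_add] at h
    -- the prime-to-`p` part is a multiple of `p`
    obtain ⟨e2, he2⟩ := Chase.exists_eq_nsmul_of_coprime hp hm hmb
    -- the `p`-primary part is a multiple of `p`
    have ha : ∃ e' : E2, a • e = p • e' := by
      have ht : ∀ v, IsPPrimary p (I v (a • e)) := fun v => Chase.pprim_map (I v) hpa
      choose t' ht'p ht' using fun v => hdiv (I v (a • e)) (ht v)
      obtain ⟨v0⟩ := hne
      set s : T := ∑ v, t' v with hs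
      have hps : p • s = 0 := by
        rw [hs, Finset.smul_sum]
        simp_rw [ht']
        exact ES3 _
      have hsum : ∑ v, (t' v - if v = v0 then s else 0) = 0 := by
        rw [Finset.sum_sub_distrib, Finset.sum_ite_eq' Finset.univ v0]
        simp [hs]
      have hpt : ∀ v, p • (t' v - if v = v0 then s else 0) = I v (a • e) := by
        intro v
        by_cases hv : v = v0
        · rw [if_pos hv, smul_sub, hps, sub_zero, ht']
        · rw [if_neg hv, sub_zero, ht']
      have hprim : ∀ v, IsPPrimary p (t' v - if v = v0 then s else 0) := by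
        intro v
        by_cases hv : v = v0
        · rw [if_pos hv]
          exact Chase.pprim_sub (ht'p v) (Chase.pprim_of_smul_eq_zero hps)
        · rw [if_neg hv, sub_zero]
          exact ht'p v
      obtain ⟨e', he'p, he'⟩ := ES2 _ hprim hsum
      refine ⟨e', ?_⟩
      have h : a • e - p • e' = 0 := by
        apply ES1 _ (Chase.pprim_sub hpa (Chase.pprim_nsmul p he'p))
        intro v
        rw [map_sub, map_nsmul, he' v, hpt v, sub_self]
      exact sub_eq_zero.1 h
    obtain ⟨e1, he1⟩ := ha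
    rw [hsplit, he1, he2, hE2', hE2', add_zero]
  · -- (K2)
    intro x
    exact ES3 _
  · -- (K3)
    intro t ht hsum
    obtain ⟨e, hep, he⟩ := ES2 t (fun v => Chase.pprim_of_smul_eq_zero (ht v)) hsum
    have hpe : p • e = 0 := by
      apply ES1 _ (Chase.pprim_nsmul p hep)
      intro v
      rw [map_nsmul, he v, ht v]
    obtain ⟨x, rfl⟩ := hE2 e hpe
    exact ⟨x, he⟩
  · -- (K4)
    intro x hx
    have h0 : j2 x = 0 :=
      ES1 _ (Chase.pprim_map j2 (Chase.pprim_of_smul_eq_zero (hpM2 x))) hx
    exact hM2 x h0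

end Fermat.Agent.S55.H23
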