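/-
Program C (S55), package C9b, leaf (RECQ), LOCAL PART (helper23; owner of RECQ: helper33).

Comparison, at a prime `q`, of

* the local invariant `H88.linvAt q ℚ τ'` (C5/C3: `H66.inv` of the localisation at an embedding
  `τ' : K → Ω = PadicAlgCl q`) of a class of `H²(Gal(K/ℚ), Kˣ)` represented by a cocycle with
  values `ζ^u` in `μ_p`, and
* helper26's invariant on the Prelude's `continuousH2 (localGaloisToGlobal q) 𝔽_p(χ)`
  (`H26.IsPreludeLocalInv`, normalised by `padicEmbedding q ζ₀`) of the class of `u`.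

`linvAt_eq_of_isPreludeLocalInv` : `linvAt q ℚ τ' [ζK ^ u] = (invP [u]) / p`.

Steps: (i) `H20.linvIndep` moves `τ'` to `τ₀ = padicEmbedding q ∘ K.val`; (ii) the localisation is
the class of the image cocycle (`mapCocycles₂`); (iii) change of the base `↥(locBase) → ℚ_q` by
`H20.transH2` / `H20.inv_transH2` with `g = 1`; (iv) the transported cocycle realises `u` on
`Gal(Ω/ℚ_q)` w.r.t. `padicEmbedding q ζ₀` (`locGalToGlobal_spec`,
`padicEmbedding_localGaloisToGlobal`); (v) `H26.IsLocalInv`.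
-/
import Mathlib
import Fermat.Agent.S55.H88.LayerDefs
import Fermat.Agent.S55.H20.LinvIndep
import Fermat.Agent.S55.H26.LocalTop
import Fermat.Agent.S55.H33.RecQDefs
import Fermat.Agent.S55.H49.C0Spec

set_option autoImplicit false

open CategoryTheory groupCohomology ExtCitation

noncomputable section

namespace Fermat.Agent.S55.H23.RecQ

open Fermat.Agent.S55 Fermat.Agent.S55.H49 Fermat.Agent.S55.H26 Fermat.Agent.S55.H66

/-- `ℚ̄`. -/
local notation "Qb" => AlgebraicClosure ℚ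

section Local

variable (q : ℕ) [Fact q.Prime] (K : IntermediateField ℚ Qb)

/-- The embedding `ι_q|K : K → Ω` induced by the Prelude's `padicEmbedding q`. -/
def emb0 : ↥K →+* PadicAlgCl q := (padicEmbedding q).toRingHom.comp (algebraMap ↥K Qb)

theorem emb0_apply (x : ↥K) : emb0 q K x = padicEmbedding q (x : Qb) := rfl

variable {K}

/-- The completion of `ℚ` inside `Ω` is `ℚ_q`. -/
theorem exists_of_mem_locBase (τ : ↥K →+* PadicAlgCl q) {x : PadicAlgCl q}
    (hx : x ∈ H88.locBase q ℚ τ) : ∃ y : ℚ_[q], algebraMap ℚ_[q] (PadicAlgCl q) y = x := by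
  have h1 : H88.locBase q ℚ τ ≤ ⊥ := by
    refine IntermediateField.adjoin_le_iff.2 ?_
    rintro _ ⟨r, rfl⟩
    refine IntermediateField.mem_bot.2 ⟨(r : ℚ_[q]), ?_⟩
    rw [map_ratCast]
    exact (map_ratCast (τ.comp (algebraMap ℚ ↥K)) r).symm
  exact IntermediateField.mem_bot.1 (h1 hx)

/-- The identification of the completion of `ℚ` inside `Ω` with `ℚ_q`. -/
def baseEquiv (τ : ↥K →+* PadicAlgCl q) : ↥(H88.locBase q ℚ τ) ≃+* ℚ_[q] :=
  (RingEquiv.ofBijective (algebraMap ℚ_[q] ↥(H88.locBase q ℚ τ))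
    ⟨(algebraMap ℚ_[q] ↥(H88.locBase q ℚ τ)).injective, fun x => by
      obtain ⟨y, hy⟩ := exists_of_mem_locBase q τ x.2
      exact ⟨y, Subtype.ext hy⟩⟩).symm

theorem isCompat_baseEquiv (τ : ↥K →+* PadicAlgCl q) :
    H20.IsCompat (AlgEquiv.refl : PadicAlgCl q ≃ₐ[ℚ_[q]] PadicAlgCl q) (baseEquiv q τ) := by
  intro x
  obtain ⟨y, hy⟩ := exists_of_mem_locBase q τ x.2
  have hx : x = algebraMap ℚ_[q] ↥(H88.locBase q ℚ τ) y := Subtype.ext hy.symm
  have h1 : baseEquiv q τ x = y := by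
    rw [hx]
    exact (RingEquiv.ofBijective (algebraMap ℚ_[q] ↥(H88.locBase q ℚ τ)) _).symm_apply_apply y
  rw [h1, hx]
  rfl

theorem isImage_locExt (τ : ↥K →+* PadicAlgCl q) :
    H20.IsImage (AlgEquiv.refl : PadicAlgCl q ≃ₐ[ℚ_[q]] PadicAlgCl q)
      (H88.locExt q ℚ τ) (H88.locField q τ) :=
  fun _ => Iff.rfl

/-- `ℚ_q(τ K)` is normal over `ℚ_q` when `K / ℚ` is. -/
instance normal_locField [Normal ℚ ↥K] (τ : ↥K →+* PadicAlgCl q) :
    Normal ℚ_[q] (H88.locField q τ) := by
  rw [IntermediateField.normal_iff_forall_map_le]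
  intro σ
  have hσ : ∀ x : ↥K, σ (τ x) ∈ H88.locField q τ := by
    intro x
    let τ'' : ↥K →+* PadicAlgCl q := (σ : PadicAlgCl q →+* PadicAlgCl q).comp τ
    have h : τ.comp (algebraMap ℚ ↥K) = τ''.comp (algebraMap ℚ ↥K) := Subsingleton.elim _ _
    obtain ⟨ρ, hρ⟩ := H88.exists_algEquiv_comp_eq q τ τ'' h
    have h2 : σ (τ x) = τ (ρ x) := RingHom.congr_fun hρ x
    rw [h2]
    exact IntermediateField.subset_adjoin ℚ_[q] (Set.range τ) ⟨_, rfl⟩
  rintro _ ⟨z, hz, rfl⟩
  have hle : H88.locField q τ ≤ (H88.locField q τ).comap σ := by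
    refine IntermediateField.adjoin_le_iff.mpr ?_
    rintro _ ⟨x, rfl⟩
    exact hσ x
  exact hle hz

instance isGalois_locField [Normal ℚ ↥K] (τ : ↥K →+* PadicAlgCl q) :
    IsGalois ℚ_[q] (H88.locField q τ) := ⟨⟩

/-- The value of the image of a 2-cocycle under `mapCocycles₂`. -/
theorem mapCocycles₂_apply {k G H : Type} [CommRing k] [Group G] [Group H]
    {A : Rep.{0, 0, 0} k H} {B : Rep.{0, 0, 0} k G} (f : G →* H) (φ : Rep.res f A ⟶ B)
    (c : cocycles₂ A) (a b : G) :
    ((mapCocycles₂ f φ).hom c).1 (a, b) = φ.hom (c.1 (f a, f b)) :=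
  congrFun (coe_mapCocycles₂ f φ c) (a, b)

/-- The class of the image cocycle is the image of the class. -/
theorem H2π_mapCocycles₂ {k G H : Type} [CommRing k] [Group G] [Group H]
    {A : Rep.{0, 0, 0} k H} {B : Rep.{0, 0, 0} k G} (f : G →* H) (φ : Rep.res f A ⟶ B)
    (c : cocycles₂ A) :
    H2π B ((mapCocycles₂ f φ).hom c) = (groupCohomology.map f φ 2).hom (H2π A c) := by
  have e := H2π_comp_map f φ
  exact (LinearMap.congr_fun (ModuleCat.hom_ext_iff.mp e) c).symm

variable (K)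
variable [FiniteDimensional ℚ K] [IsGalois ℚ K]

instance numberField_h23 : NumberField ↥K :=
  { to_charZero := inferInstance
    to_finiteDimensional := inferInstance }

omit [FiniteDimensional ℚ ↥K] in
/-- The decomposition-group map, after the change of base `↥(locBase) → ℚ_q`, sends `g|L` to
`(r g)|K` (`r = localGaloisToGlobal q`). -/
theorem locGalToGlobal_galMap_res (g : GalQ q) :
    H88.locGalToGlobal q ℚ (emb0 q K)
        (H20.galMap (isCompat_baseEquiv q (emb0 q K)) (isImage_locExt q (emb0 q K))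
          (AlgEquiv.restrictNormalHom (H88.locField q (emb0 q K)) g)) =
      AlgEquiv.restrictNormalHom ↥K (localGaloisToGlobal q g) := by
  refine AlgEquiv.ext fun x => (emb0 q K).injective ?_
  set α := H20.galMap (isCompat_baseEquiv q (emb0 q K)) (isImage_locExt q (emb0 q K))
    (AlgEquiv.restrictNormalHom (H88.locField q (emb0 q K)) g) with hα
  -- left-hand side
  have h1 := H88.locGalToGlobal_spec q ℚ (emb0 q K) α x
  have h2 : ((α (H88.locExtEmb q ℚ (emb0 q K) x) : H88.locExt q ℚ (emb0 q K)) : PadicAlgCl q) =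
      emb0 q K (H88.locGalToGlobal q ℚ (emb0 q K) α x) :=
    congrArg (fun y : H88.locExt q ℚ (emb0 q K) => (y : PadicAlgCl q)) h1
  have h3 := H20.coe_galMap (isCompat_baseEquiv q (emb0 q K)) (isImage_locExt q (emb0 q K))
    (AlgEquiv.restrictNormalHom (H88.locField q (emb0 q K)) g)
    (H88.locExtEmb q ℚ (emb0 q K) x)
  have h4 : (((AlgEquiv.restrictNormalHom (H88.locField q (emb0 q K)) g)
      (H20.fieldEquiv (isImage_locExt q (emb0 q K)) (H88.locExtEmb q ℚ (emb0 q K) x)) :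
        H88.locField q (emb0 q K)) : PadicAlgCl q) = g (emb0 q K x) :=
    AlgEquiv.restrictNormal_commutes g (H88.locField q (emb0 q K)) _
  have hL : emb0 q K (H88.locGalToGlobal q ℚ (emb0 q K) α x) = g (emb0 q K x) := by
    rw [← h2, ← h4, ← h3]
    rfl
  -- right-hand side
  have hR : emb0 q K (AlgEquiv.restrictNormalHom ↥K (localGaloisToGlobal q g) x) =
      g (emb0 q K x) := by
    rw [emb0_apply, emb0_apply, ← padicEmbedding_localGaloisToGlobal]
    congr 1
    exact AlgEquiv.restrictNormal_commutes (localGaloisToGlobal q g) ↥K x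
  rw [hL, hR]

variable (p : ℕ) [Fact p.Prime]

set_option maxHeartbeats 1000000 in
set_option synthInstance.maxHeartbeats 400000 in
/-- **(LOC-CMP), core.**  If the unit-valued cocycle `c` of `Gal(K/ℚ)` realises, on the image of
the local Galois group, the local level cocycle `u'` w.r.t. `ζK` (`(ζK : ℚ̄) = ζ₀`), then the
local invariant of `[c]` at any embedding `τ' : K → Ω` is `invP [u'] / p`, for every
Prelude-level local invariant `invP` normalised by `padicEmbedding q ζ₀`. -/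
theorem linvAt_eq_of_isPreludeLocalInv (ζ₀ : Qb)
    (invP : continuousH2 (localGaloisToGlobal q) (mu (chiLoc p q)) →ₗ[ZMod p] ZMod p)
    (hinv : IsPreludeLocalInv p q (padicEmbedding q ζ₀) invP)
    (ζK : (↥K)ˣ) (hζK : ((ζK : ↥K) : Qb) = ζ₀)
    (c : cocycles₂ (Rep.ofAlgebraAutOnUnits ℚ ↥K))
    (u' : levelCocycles₂ (localGaloisToGlobal q) (mu (chiLoc p q)))
    (hc : ∀ g h : GalQ q,
      c.1 (AlgEquiv.restrictNormalHom ↥K (localGaloisToGlobal q g),
          AlgEquiv.restrictNormalHom ↥K (localGaloisToGlobal q h)) =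
        Rep.toAdditive.symm (Additive.ofMul (ζK ^ (u'.1 (g, h) : ZMod p).val)))
    (τ' : ↥K →+* PadicAlgCl q) :
    H88.linvAt q ℚ τ' (H2π (Rep.ofAlgebraAutOnUnits ℚ ↥K) c) =
      qzOfZMod p (invP (continuousH2π (localGaloisToGlobal q) (mu (chiLoc p q)) u')) := by
  -- (i) independence of the embedding
  have h1 : H88.linvAt q ℚ τ' = H88.linvAt q ℚ (emb0 q K) :=
    H20.linvIndep ℚ ↥K q τ' (emb0 q K) ⟨1, Subsingleton.elim _ _⟩
  rw [h1]
  have he := isCompat_baseEquiv q (emb0 q K)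
  have hL := isImage_locExt q (emb0 q K)
  -- (ii) the localised cocycle
  obtain ⟨c₁, hc₁⟩ : ∃ c₁ : cocycles₂ (Rep.ofAlgebraAutOnUnits (H88.locBase q ℚ (emb0 q K))
      (H88.locExt q ℚ (emb0 q K))), c₁ =
    (mapCocycles₂ (H88.locGalToGlobal q ℚ (emb0 q K))
      (H88.globalToLocUnits q ℚ (emb0 q K))).hom c := ⟨_, rfl⟩
  have e1 : H2π _ c₁ = H88.locH2At q ℚ (emb0 q K) (H2π _ c) := by
    rw [hc₁]
    exact H2π_mapCocycles₂ _ _ c
  -- (iii) change of base
  obtain ⟨c₂, hc₂⟩ : ∃ c₂ : cocycles₂ (Rep.ofAlgebraAutOnUnits ℚ_[q]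
      (H88.locField q (emb0 q K))), c₂ =
    (mapCocycles₂ (H20.galMap he hL) (H20.transRep he hL)).hom c₁ := ⟨_, rfl⟩
  have e2 : H2π _ c₂ = (H20.transH2 he hL).hom (H2π _ c₁) := by
    rw [hc₂]
    exact H2π_mapCocycles₂ _ _ c₁
  have e4 : H66.inv q (H88.locField q (emb0 q K)) ((H20.transH2 he hL).hom (H2π _ c₁)) =
      H66.inv q (H88.locExt q ℚ (emb0 q K)) (H2π _ c₁) := H20.inv_transH2 he hL _
  have e3 : H88.linvAt q ℚ (emb0 q K) (H2π _ c) =
      H66.inv q (H88.locField q (emb0 q K)) (H2π _ c₂) := by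
    rw [e2, e4, e1]
    rfl
  rw [e3]
  -- (v) the local invariant
  obtain ⟨inv₀, hinv₀, hcomp⟩ := hinv
  obtain ⟨e, hex, -⟩ := H99.bridgeLocal2All (ZMod p) (GalQ q) (localGaloisToGlobal q)
    (mu (chiLoc p q)) (smooth_mu_chiLoc p q)
  obtain ⟨z, hz⟩ := hex u'
  rw [hcomp u' z hz]
  obtain ⟨ζL, hζLdef⟩ : ∃ ζL : (↥(H88.locField q (emb0 q K)))ˣ, ζL =
    Units.map ((((H20.fieldEquiv hL : _ →+* _).comp (H88.locExtEmb q ℚ (emb0 q K)) :
      ↥K →+* ↥(H88.locField q (emb0 q K))) : ↥K →* ↥(H88.locField q (emb0 q K)))) ζK :=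
    ⟨_, rfl⟩
  have hζL : ((ζL : ↥(H88.locField q (emb0 q K))) : PadicAlgCl q) = padicEmbedding q ζ₀ := by
    rw [hζLdef, ← hζK]
    rfl
  refine (hinv₀ (H88.locField q (emb0 q K)) ζL hζL _ _ ⟨z, c₂, rfl, rfl, fun g => ?_⟩).symm
  -- (iv) the values of the transported cocycle
  refine Eq.trans ?_ (congrArg (zetaPow p ζL) (hz g).symm)
  have v1 : c₂.1 (AlgEquiv.restrictNormalHom (H88.locField q (emb0 q K)) (g 0),
      AlgEquiv.restrictNormalHom (H88.locField q (emb0 q K)) (g 1)) =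
      (H20.transRep he hL).hom (c₁.1
        (H20.galMap he hL (AlgEquiv.restrictNormalHom (H88.locField q (emb0 q K)) (g 0)),
         H20.galMap he hL (AlgEquiv.restrictNormalHom (H88.locField q (emb0 q K)) (g 1)))) :=
    by rw [hc₂]; exact mapCocycles₂_apply _ _ c₁ _ _
  have v2 : c₁.1
        (H20.galMap he hL (AlgEquiv.restrictNormalHom (H88.locField q (emb0 q K)) (g 0)),
         H20.galMap he hL (AlgEquiv.restrictNormalHom (H88.locField q (emb0 q K)) (g 1))) =
      (H88.globalToLocUnits q ℚ (emb0 q K)).hom (c.1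
        (AlgEquiv.restrictNormalHom ↥K (localGaloisToGlobal q (g 0)),
         AlgEquiv.restrictNormalHom ↥K (localGaloisToGlobal q (g 1)))) := by
    have v3 := mapCocycles₂_apply (H88.locGalToGlobal q ℚ (emb0 q K))
      (H88.globalToLocUnits q ℚ (emb0 q K)) c
      (H20.galMap he hL (AlgEquiv.restrictNormalHom (H88.locField q (emb0 q K)) (g 0)))
      (H20.galMap he hL (AlgEquiv.restrictNormalHom (H88.locField q (emb0 q K)) (g 1)))
    have k0 := locGalToGlobal_galMap_res q K (g 0)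
    have k1 := locGalToGlobal_galMap_res q K (g 1)
    rw [hc₁]
    exact v3.trans (congrArg (H88.globalToLocUnits q ℚ (emb0 q K)).hom
      (congrArg₂ (fun a b => c.1 (a, b)) k0 k1))
  have v4 : (H20.transRep he hL).hom ((H88.globalToLocUnits q ℚ (emb0 q K)).hom
      (Rep.toAdditive.symm (Additive.ofMul (ζK ^ (u'.1 (g 0, g 1) : ZMod p).val)) :
        Rep.ofAlgebraAutOnUnits ℚ ↥K)) =
      zetaPow p ζL (u'.1 (g 0, g 1)) := by
    refine congrArg Additive.ofMul (Units.ext (Subtype.ext ?_))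
    show ((H20.fieldEquiv hL (H88.locExtEmb q ℚ (emb0 q K)
        (((ζK ^ (u'.1 (g 0, g 1) : ZMod p).val : (↥K)ˣ) : ↥K))) :
          ↥(H88.locField q (emb0 q K))) : PadicAlgCl q) =
      (((ζL ^ (u'.1 (g 0, g 1) : ZMod p).val : (↥(H88.locField q (emb0 q K)))ˣ) :
          ↥(H88.locField q (emb0 q K))) : PadicAlgCl q)
    rw [Units.val_pow_eq_pow_val, Units.val_pow_eq_pow_val, map_pow, map_pow, hζLdef]
    rfl
  exact v1.trans ((congrArg (H20.transRep he hL).hom
    (v2.trans (congrArg (H88.globalToLocUnits q ℚ (emb0 q K)).hom (hc (g 0) (g 1))))).trans v4)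

end Local

section Family

attribute [local instance] H88.factOfPrimes

variable {p : ℕ} [Fact p.Prime] {S : Finset Nat.Primes}

set_option maxHeartbeats 1000000 in
set_option synthInstance.maxHeartbeats 400000 in
/-- **(LOC-CMP)**, verbatim in the shape of `H33/RecQDefs.lean`, for every family of local
invariants normalised by ONE global root of unity `ζ` (`H26.IsLocalInvFamily`): the third input
of helper33's `H33.recStatement_of` / `H33.recStatement_of_rec`. -/
theorem locCmpStatement_of_family {ζ : Qb} {inv : H62.LocalInv p S}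
    (hfam : H26.IsLocalInvFamily p S ζ inv) : H33.LocCmpStatement p S inv ζ := by
  intro K _ _ ζK hζK u c hc q v hv
  obtain ⟨q', w⟩ := v
  subst hv
  obtain ⟨u', hu', hu'v⟩ := H49.locRes₂S_π S (H62.chiRep p) (primeLocalToGlobal q.1) u
  rw [hu']
  exact linvAt_eq_of_isPreludeLocalInv (q.1 : ℕ) K p ζ (inv q) (hfam q) ζK hζK c u'
    (fun g h => (hc _ _).trans (congrArg (H33.zetaPowG p ζK) (hu'v g h).symm)) _

end Family

end Fermat.Agent.S55.H23.RecQ
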