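/-
Program C (S55), package C9b, leaf (RECQ): closing file (helper23).

`H62.RECStatement p S inv` (the local invariants of a class of `H²(G_S, 𝔽_p(χ))` sum to zero) for
every family of local invariants normalised by ONE global `p`-th root of unity
(`H26.IsLocalInvFamily`), from C8's export (REC) alone:

* helper33's global part `H33.recStatement_of_rec` (with (OUT-Q) and (REC-Q) closed there), and
* the local comparison `locCmpStatement_of_family` (`H23/RecQLoc.lean`).
-/
import Mathlib
import Fermat.Agent.S55.H23.RecQLoc
import Fermat.Agent.S55.H33.RecQInputs

set_option autoImplicit false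

open CategoryTheory groupCohomology ExtCitation

noncomputable section

namespace Fermat.Agent.S55.H23.RecQ

open Fermat.Agent.S55

variable {p : ℕ} [Fact p.Prime] {S : Finset Nat.Primes}

/-- **(RECQ)** for every family of local invariants, from C8's (REC) for the finite Galois layers
of number fields. -/
theorem recStatement_of_family (hpS : pPrime p ∈ S) {ζ : AlgebraicClosure ℚ} (hζ : ζ ^ p = 1)
    {inv : H62.LocalInv p S} (hfam : H26.IsLocalInvFamily p S ζ inv)
    (hRec : H29.RecStatement H29.NFLayer p) : H62.RECStatement p S inv :=
  H33.recStatement_of_rec hpS inv ζ hζ hRec (locCmpStatement_of_family hfam)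

end Fermat.Agent.S55.H23.RecQ

end
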