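/-
Program C (S55), package C9a, leaf KUMMER (helper23), part 3: the Kummer homomorphism
`kumHom : Lˣ → H¹(G_ℚ, F_L')` (module form of `Lˣ → H¹(G_L, μ_p)`), its kernel (the `p`-th
powers), and level-`S`-constancy of the classes of elements that are `p`-th powers times units
at all places outside `S`.
-/
import Mathlib
import Fermat.Prelude.Def_GroupCohomology_ContinuousUnramified
import Fermat.Agent.S55.H87.BaseAdm
import Fermat.Agent.S55.H87.UnrKummer
import Fermat.Agent.S55.H23.KummerCoc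

set_option autoImplicit false

namespace Fermat.Agent.S55.H23.Kum

open ExtCitation groupCohomology Fermat.Agent.S55.H70

/-- `ℚ̄`. -/
local notation "Qb" => AlgebraicClosure ℚ

local instance isAlgebraicQbar_h23 : Algebra.IsAlgebraic ℚ (AlgebraicClosure ℚ) :=
  AlgebraicClosure.isAlgebraic ℚ
local instance isAlgClosureQbar_h23 : IsAlgClosure ℚ (AlgebraicClosure ℚ) :=
  ⟨inferInstance, inferInstance⟩
local instance isGaloisQbar_h23 : IsGalois ℚ (AlgebraicClosure ℚ) :=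
  IsAlgClosure.isGalois ℚ (AlgebraicClosure ℚ)

variable {p : ℕ} [Fact p.Prime] {L : IntermediateField ℚ Qb}

/-! ### The class of an admissible function -/

/-- The Kummer cocycle of an admissible function. -/
noncomputable def kcocycle {ζ : Qb} (hζ : IsPrimitiveRoot ζ p) {β : GQ ⧸ L.fixingSubgroup → Qb}
    (hβ : Adm L p β) : cocycles₁ (D p (baseRep p L)) :=
  ⟨kcoc L ζ β, (mem_cocycles₁_iff _).2 (kcoc_mul hζ hβ)⟩

theorem kcocycle_apply {ζ : Qb} (hζ : IsPrimitiveRoot ζ p) {β : GQ ⧸ L.fixingSubgroup → Qb}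
    (hβ : Adm L p β) (g : GQ) : (kcocycle hζ hβ : GQ → D p (baseRep p L)) g = kcoc L ζ β g :=
  rfl

/-- The Kummer class of an admissible function. -/
noncomputable def kclass {ζ : Qb} (hζ : IsPrimitiveRoot ζ p) {β : GQ ⧸ L.fixingSubgroup → Qb}
    (hβ : Adm L p β) : H1 (D p (baseRep p L)) :=
  (H1π (D p (baseRep p L))).hom (kcocycle hζ hβ)

theorem kcocycle_mul {ζ : Qb} (hζ : IsPrimitiveRoot ζ p) {β₁ β₂ : GQ ⧸ L.fixingSubgroup → Qb}
    (h₁ : Adm L p β₁) (h₂ : Adm L p β₂) :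
    kcocycle hζ (h₁.mul h₂) = kcocycle hζ h₁ + kcocycle hζ h₂ :=
  Subtype.ext (funext fun g => kcoc_mul_fun hζ h₁ h₂ g)

theorem kclass_mul {ζ : Qb} (hζ : IsPrimitiveRoot ζ p) {β₁ β₂ : GQ ⧸ L.fixingSubgroup → Qb}
    (h₁ : Adm L p β₁) (h₂ : Adm L p β₂) :
    kclass hζ (h₁.mul h₂) = kclass hζ h₁ + kclass hζ h₂ := by
  rw [kclass, kcocycle_mul hζ h₁ h₂, map_add]
  rfl

theorem kclass_congr {ζ : Qb} (hζ : IsPrimitiveRoot ζ p) {β₁ β₂ : GQ ⧸ L.fixingSubgroup → Qb}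
    (h₁ : Adm L p β₁) (h₂ : Adm L p β₂) (h : β₁ = β₂) : kclass hζ h₁ = kclass hζ h₂ := by
  subst h
  rfl

/-- The class only depends on the `p`-th power of the function. -/
theorem kclass_eq_of_pow_eq {ζ : Qb} (hζ : IsPrimitiveRoot ζ p)
    {β₁ β₂ : GQ ⧸ L.fixingSubgroup → Qb} (h₁ : Adm L p β₁) (h₂ : Adm L p β₂)
    (h : ∀ x, β₁ x ^ p = β₂ x ^ p) : kclass hζ h₁ = kclass hζ h₂ := by
  have hp : p ≠ 0 := (Fact.out : p.Prime).ne_zero
  set ξ : GQ ⧸ L.fixingSubgroup → Qb := fun x => β₁ x / β₂ x with hξdef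
  have hξ : ∀ x, ξ x ^ p = 1 := fun x => by
    rw [hξdef]
    simp only
    rw [div_pow, h x]
    exact div_self (pow_ne_zero p (h₂.1 x))
  have hξadm : Adm L p ξ := adm_of_pow_eq_one hξ hp
  have hβ : β₁ = ξ * β₂ := by
    funext x
    simp only [hξdef, Pi.mul_apply]
    rw [div_mul_cancel₀ _ (h₂.1 x)]
  have h0 : kclass hζ hξadm = 0 := by
    refine (H1π_eq_zero_iff (kcocycle hζ hξadm)).2 ?_
    refine ⟨fnl L fun x => dlog p ζ (ξ x), funext fun g => ?_⟩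
    exact (kcoc_of_pow_eq_one hζ hξ g).symm
  rw [kclass_congr hζ h₁ (hξadm.mul h₂) hβ, kclass_mul hζ hξadm h₂, h0, zero_add]

/-- If the class vanishes, the function can be corrected to a `G_ℚ`-invariant one. -/
theorem exists_invariant_of_kclass_eq_zero {ζ : Qb} (hζ : IsPrimitiveRoot ζ p)
    {β : GQ ⧸ L.fixingSubgroup → Qb} (hβ : Adm L p β) (h : kclass hζ hβ = 0) :
    ∃ β' : GQ ⧸ L.fixingSubgroup → Qb, (∀ x, β' x ^ p = β x ^ p) ∧
      ∀ (g : GQ) (x : GQ ⧸ L.fixingSubgroup), g (β' (g⁻¹ • x)) = β' x := by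
  have h1 := (H1π_eq_zero_iff (kcocycle hζ hβ)).1 h
  obtain ⟨φ, hφ⟩ := h1
  refine exists_invariant_of_coboundary hζ hβ φ fun g => ?_
  have h2 := congrFun hφ g
  exact h2.symm

end Fermat.Agent.S55.H23.Kum
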