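/-
Program C (S55), package C9a, leaf KUMMER (helper23), part 4: the Kummer homomorphism on `Lˣ`.

* `kumHom hζ : Additive (↥L)ˣ →+ H¹(G_ℚ, F_L')`;
* `exists_pow_eq_of_kumHom_eq_zero` : its kernel consists of `p`-th powers of elements of `L`;
* `kumHom_mem_continuousH1S` : the class of `u` is level-`S`-constant when, at every place `A`
  over a prime outside `S`, `u` is a `p`-th power of an element of `L` times an `A`-unit;
* `exists_injective_of_family` : an injective linear map `𝔽_p^n → continuousH1S S F_L'` from a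
  family of `n` such elements which is independent modulo `p`-th powers.
-/
import Mathlib
import Fermat.Prelude.Def_GroupCohomology_ContinuousUnramified
import Fermat.Agent.S55.H87.BaseAdm
import Fermat.Agent.S55.H87.UnrKummer
import Fermat.Agent.S55.H23.KummerClass

set_option autoImplicit false

namespace Fermat.Agent.S55.H23.Kum

open ExtCitation groupCohomology Fermat.Agent.S55.H70

/-- `ℚ̄`. -/
local notation "Qb" => AlgebraicClosure ℚ

local instance isAlgebraicQbar_h23m : Algebra.IsAlgebraic ℚ (AlgebraicClosure ℚ) :=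
  AlgebraicClosure.isAlgebraic ℚ
local instance isAlgClosureQbar_h23m : IsAlgClosure ℚ (AlgebraicClosure ℚ) :=
  ⟨inferInstance, inferInstance⟩
local instance isGaloisQbar_h23m : IsGalois ℚ (AlgebraicClosure ℚ) :=
  IsAlgClosure.isGalois ℚ (AlgebraicClosure ℚ)

variable {p : ℕ} [Fact p.Prime] {L : IntermediateField ℚ Qb}

/-! ### Conjugates and their `p`-th roots -/

/-- The conjugates of `a`, indexed by the cosets of `G_L`. -/
noncomputable def conj (L : IntermediateField ℚ Qb) (a : Qb) (x : GQ ⧸ L.fixingSubgroup) : Qb :=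
  (Quotient.out x) a

theorem conj_mk {a : Qb} (ha : a ∈ L) (γ : GQ) : conj L a (γ : GQ ⧸ L.fixingSubgroup) = γ a := by
  obtain ⟨h, hh⟩ := QuotientGroup.mk_out_eq_mul L.fixingSubgroup γ
  have h1 : (h : GQ) a = a := (IntermediateField.mem_fixingSubgroup_iff L h).1 h.2 a ha
  unfold conj
  rw [show Quotient.out (γ : GQ ⧸ L.fixingSubgroup) = γ * h from hh, AlgEquiv.mul_apply, h1]

theorem map_conj {a : Qb} (ha : a ∈ L) (g : GQ) (x : GQ ⧸ L.fixingSubgroup) :
    g (conj L a (g⁻¹ • x)) = conj L a x := by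
  induction x using QuotientGroup.induction_on with
  | H γ =>
    have h1 : g⁻¹ • (γ : GQ ⧸ L.fixingSubgroup) = ((g⁻¹ * γ : GQ) : GQ ⧸ L.fixingSubgroup) := rfl
    rw [h1, conj_mk ha, conj_mk ha, ← AlgEquiv.mul_apply, mul_inv_cancel_left]

theorem conj_mul (a b : Qb) (x : GQ ⧸ L.fixingSubgroup) :
    conj L (a * b) x = conj L a x * conj L b x := by
  unfold conj
  rw [map_mul]

theorem conj_ne_zero {a : Qb} (ha0 : a ≠ 0) (x : GQ ⧸ L.fixingSubgroup) : conj L a x ≠ 0 := by
  unfold conj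
  rw [Ne, map_eq_zero]
  exact ha0

theorem map_mem_of_isGalois (hL : IsGalois ℚ L) (γ : GQ) {a : Qb} (ha : a ∈ L) : γ a ∈ L := by
  have h := (IntermediateField.normal_iff_forall_map_le (F := ℚ) (K := L)).1 hL.to_normal
    (γ : Qb →ₐ[ℚ] Qb)
  exact h ⟨a, ha, rfl⟩

theorem conj_mem (hL : IsGalois ℚ L) {a : Qb} (ha : a ∈ L) (x : GQ ⧸ L.fixingSubgroup) :
    conj L a x ∈ L :=
  map_mem_of_isGalois hL _ ha

/-- A choice of `p`-th roots of the conjugates of `a`. -/
noncomputable def root (p : ℕ) [Fact p.Prime] (L : IntermediateField ℚ Qb) (a : Qb)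
    (x : GQ ⧸ L.fixingSubgroup) : Qb :=
  Classical.choose (IsAlgClosed.exists_pow_nat_eq (conj L a x) (Fact.out : p.Prime).pos)

theorem root_pow (a : Qb) (x : GQ ⧸ L.fixingSubgroup) : root p L a x ^ p = conj L a x :=
  Classical.choose_spec (IsAlgClosed.exists_pow_nat_eq (conj L a x) (Fact.out : p.Prime).pos)

theorem adm_root {a : Qb} (ha : a ∈ L) (ha0 : a ≠ 0) : Adm L p (root p L a) := by
  refine ⟨fun x h0 => ?_, fun g x => ?_⟩
  · have h1 := root_pow (p := p) (L := L) a x
    rw [h0, zero_pow (Fact.out : p.Prime).ne_zero] at h1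
    exact conj_ne_zero ha0 x h1.symm
  · rw [← map_pow, root_pow, root_pow, map_conj ha]

/-! ### The Kummer homomorphism -/

theorem coe_unit_ne_zero (u : (↥L)ˣ) : (((u : ↥L) : Qb)) ≠ 0 := by
  intro h
  have h1 : (u : ↥L) = 0 := Subtype.ext h
  exact u.ne_zero h1

/-- The Kummer class of a unit of `L`. -/
noncomputable def kum {ζ : Qb} (hζ : IsPrimitiveRoot ζ p) (u : (↥L)ˣ) :
    H1 (D p (baseRep p L)) :=
  kclass hζ (adm_root (p := p) (u : ↥L).2 (coe_unit_ne_zero u))

theorem kum_mul {ζ : Qb} (hζ : IsPrimitiveRoot ζ p) (u v : (↥L)ˣ) :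
    kum hζ (u * v) = kum hζ u + kum hζ v := by
  unfold kum
  rw [← kclass_mul hζ]
  apply kclass_eq_of_pow_eq
  intro x
  simp only [Pi.mul_apply, mul_pow, root_pow]
  rw [← conj_mul]
  rfl

/-- The Kummer homomorphism `Lˣ → H¹(G_ℚ, F_L')`. -/
noncomputable def kumHom {ζ : Qb} (hζ : IsPrimitiveRoot ζ p) :
    Additive (↥L)ˣ →+ H1 (D p (baseRep p L)) :=
  AddMonoidHom.mk' (fun u => kum hζ (Additive.toMul u)) fun _ _ => kum_mul hζ _ _

theorem kumHom_apply {ζ : Qb} (hζ : IsPrimitiveRoot ζ p) (u : (↥L)ˣ) :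
    kumHom hζ (Additive.ofMul u) = kum hζ u := rfl

/-- **The kernel of the Kummer homomorphism consists of `p`-th powers.** -/
theorem exists_pow_eq_of_kum_eq_zero (hL : IsGalois ℚ L) {ζ : Qb} (hζ : IsPrimitiveRoot ζ p)
    (u : (↥L)ˣ) (h : kum hζ u = 0) : ∃ b : ↥L, b ^ p = (u : ↥L) := by
  obtain ⟨β', hβ'pow, hβ'inv⟩ := exists_invariant_of_kclass_eq_zero hζ _ h
  set x₀ : GQ ⧸ L.fixingSubgroup := ((1 : GQ) : GQ ⧸ L.fixingSubgroup) with hx₀
  have hfix : ∀ s ∈ L.fixingSubgroup, s (β' x₀) = β' x₀ := by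
    intro s hs
    have h1 := hβ'inv s x₀
    rwa [Fermat.Agent.S55.H87.smul_coset_eq L hL (L.fixingSubgroup.inv_mem hs)] at h1
  have hmem : β' x₀ ∈ L := by
    rw [← InfiniteGalois.fixedField_fixingSubgroup L, IntermediateField.mem_fixedField_iff]
    exact hfix
  refine ⟨⟨β' x₀, hmem⟩, Subtype.ext ?_⟩
  show β' x₀ ^ p = ((u : ↥L) : Qb)
  rw [hβ'pow, root_pow, hx₀, conj_mk (u : ↥L).2]
  rfl

/-! ### Level constancy -/

/-- At every place over a prime outside `S`, `a` is a `p`-th power of an element of `L` times a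
unit. -/
def GoodOutside (S : Finset Nat.Primes) (L : IntermediateField ℚ Qb) (p : ℕ) (a : Qb) : Prop :=
  ∀ q : Nat.Primes, q ∉ S → ∀ A : ValuationSubring Qb, A.LiesOverPrime (q : ℕ) →
    ∃ c ∈ L, c ≠ 0 ∧ a / c ^ p ∈ A ∧ c ^ p / a ∈ A

theorem liesOverPrime_comap {A : ValuationSubring Qb} {q : ℕ} (hq : q ≠ 0)
    (hA : A.LiesOverPrime q) (γ : GQ) :
    (A.comap ((γ : Qb ≃+* Qb) : Qb →+* Qb)).LiesOverPrime q := by
  unfold ValuationSubring.LiesOverPrime at hA ⊢
  rw [ValuationSubring.mem_nonunits_iff_or] at hA ⊢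
  have hq0 : (q : Qb) ≠ 0 := Nat.cast_ne_zero.2 hq
  refine Or.inr fun h => ?_
  rcases hA with h0 | h1
  · exact hq0 h0
  · apply h1
    rw [ValuationSubring.mem_comap] at h
    simpa using h

omit [Fact p.Prime] in
theorem goodOutside_map (hL : IsGalois ℚ L) {S : Finset Nat.Primes} {a : Qb}
    (hgood : GoodOutside S L p a) (γ : GQ) : GoodOutside S L p (γ a) := by
  intro q hq A hA
  obtain ⟨c, hcL, hc0, h1, h2⟩ :=
    hgood q hq (A.comap ((γ : Qb ≃+* Qb) : Qb →+* Qb)) (liesOverPrime_comap q.2.ne_zero hA γ)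
  refine ⟨γ c, map_mem_of_isGalois hL γ hcL, (map_ne_zero _).2 hc0, ?_, ?_⟩
  · rw [ValuationSubring.mem_comap] at h1
    simpa [map_div₀, map_pow] using h1
  · rw [ValuationSubring.mem_comap] at h2
    simpa [map_div₀, map_pow] using h2

/-- The field generated over `L` by the chosen `p`-th roots of the conjugates of `a` is
unramified outside `S`. -/
theorem exists_unramified_field {S : Finset Nat.Primes} (hpS : pPrime p ∈ S)
    (hLur : L.IsUnramifiedOutside S) (hL : IsGalois ℚ L) {a : Qb} (ha : a ∈ L)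
    (hgood : GoodOutside S L p a) :
    ∃ F₀ : IntermediateField ℚ Qb, F₀.IsUnramifiedOutside S ∧ L ≤ F₀ ∧
      ∀ x, root p L a x ∈ F₀ := by
  classical
  have hfd : FiniteDimensional ℚ L := hLur.1
  have hfin : Finite (GQ ⧸ L.fixingSubgroup) :=
    Subgroup.quotient_finite_of_isOpen L.fixingSubgroup
      (IntermediateField.fixingSubgroup_isOpen L)
  let _ : Fintype (GQ ⧸ L.fixingSubgroup) := Fintype.ofFinite _
  have hFx : ∀ x, (L ⊔ IntermediateField.adjoin ℚ {root p L a x}).IsUnramifiedOutside S := by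
    intro x
    refine Fermat.Agent.S55.H87.isUnramifiedOutside_sup_adjoin (n := p)
      (Fact.out : p.Prime).ne_zero
      (fun q hq => by simpa using Fermat.Agent.S55.H87.coprime_pow_of_mem hpS 1 q hq) hLur ?_ ?_
    · rw [root_pow]
      exact conj_mem hL ha x
    · intro q hq A hA
      rw [root_pow]
      exact goodOutside_map hL hgood _ q hq A hA
  refine ⟨Finset.univ.sup fun x => L ⊔ IntermediateField.adjoin ℚ {root p L a x}, ?_, ?_, ?_⟩
  · exact Finset.sup_induction (p := fun F : IntermediateField ℚ Qb => F.IsUnramifiedOutside S)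
      (IntermediateField.isUnramifiedOutside_bot S)
      (fun _ h₁ _ h₂ => IntermediateField.IsUnramifiedOutside.sup h₁ h₂) (fun x _ => hFx x)
  · exact le_trans le_sup_left
      (Finset.le_sup (f := fun x => L ⊔ IntermediateField.adjoin ℚ {root p L a x})
        (Finset.mem_univ ((1 : GQ) : GQ ⧸ L.fixingSubgroup)))
  · intro x
    exact (Finset.le_sup (f := fun x => L ⊔ IntermediateField.adjoin ℚ {root p L a x})
      (Finset.mem_univ x)) ((le_sup_right : IntermediateField.adjoin ℚ {root p L a x} ≤ _)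
        (IntermediateField.mem_adjoin_simple_self ℚ _))

/-- **Level constancy of Kummer classes.** -/
theorem kum_mem_continuousH1S {S : Finset Nat.Primes} (hpS : pPrime p ∈ S)
    (hLur : L.IsUnramifiedOutside S) (hL : IsGalois ℚ L) {ζ : Qb} (hζ : IsPrimitiveRoot ζ p)
    (u : (↥L)ˣ) (hgood : GoodOutside S L p ((u : ↥L) : Qb)) :
    kum hζ u ∈ continuousH1S S (D p (baseRep p L)) := by
  obtain ⟨F₀, hF₀, hLF, hroot⟩ := exists_unramified_field hpS hLur hL (u : ↥L).2 hgood
  refine (mem_continuousH1S_iff S _ _).2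
    ⟨kcocycle hζ (adm_root (u : ↥L).2 (coe_unit_ne_zero u)), ⟨F₀, hF₀, fun g s hs => ?_⟩, rfl⟩
  have hsL : s ∈ L.fixingSubgroup := IntermediateField.fixingSubgroup_antitone hLF hs
  exact kcoc_mul_right_of_fix hL ζ _ g s hsL
    (fun x => (IntermediateField.mem_fixingSubgroup_iff F₀ s).1 hs _ (hroot x))

/-! ### The final map -/

/-- **KUMMER, abstract form.**  A family of `n` units of `L` which are `p`-th powers times units
at all places outside `S`, and which is independent modulo `p`-th powers, gives an injective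
linear map `𝔽_p^n → continuousH1S S F_L'`. -/
theorem exists_injective_of_family {S : Finset Nat.Primes} (hpS : pPrime p ∈ S)
    (hLS : IsLevelField p S L) (n : ℕ) (u : Fin n → (↥L)ˣ)
    (hgood : ∀ i, GoodOutside S L p (((u i : (↥L)ˣ) : ↥L) : Qb))
    (hind : ∀ t : Fin n → ℕ, (∃ b : ↥L, ∏ i, ((u i : (↥L)ˣ) : ↥L) ^ t i = b ^ p) →
      ∀ i, p ∣ t i) :
    ∃ κ : (Fin n → ZMod p) →ₗ[ZMod p] ↥(continuousH1S S (D p (baseRep p L))),
      Function.Injective κ := by
  obtain ⟨hLur, hLgal, -⟩ := hLS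
  have hp : p.Prime := Fact.out
  have : NeZero (p : Qb) := ⟨Nat.cast_ne_zero.2 hp.ne_zero⟩
  obtain ⟨ζ, hζ⟩ := HasEnoughRootsOfUnity.exists_primitiveRoot Qb p
  let v : Fin n → ↥(continuousH1S S (D p (baseRep p L))) := fun i =>
    ⟨kum hζ (u i), kum_mem_continuousH1S hpS hLur hLgal hζ (u i) (hgood i)⟩
  refine ⟨Fintype.linearCombination (ZMod p) v, ?_⟩
  rw [injective_iff_map_eq_zero]
  intro t ht
  -- pass to `H¹`
  have h1 : ∑ i, t i • kum hζ (u i) = 0 := by
    have h2 := congrArg (fun y : ↥(continuousH1S S (D p (baseRep p L))) =>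
      (y : H1 (D p (baseRep p L)))) ht
    simp only [Fintype.linearCombination_apply, Submodule.coe_sum, Submodule.coe_smul,
      Submodule.coe_zero] at h2
    exact h2
  -- rewrite as the class of a product
  have h3 : ∀ i, t i • kum hζ (u i) = kumHom hζ (Additive.ofMul (u i ^ (t i).val)) := by
    intro i
    have : NeZero p := ⟨hp.ne_zero⟩
    rw [ofMul_pow, map_nsmul, kumHom_apply, ← Nat.cast_smul_eq_nsmul (ZMod p),
      ZMod.natCast_zmod_val]
  have h4 : kum hζ (∏ i, u i ^ (t i).val) = 0 := by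
    rw [← kumHom_apply, ofMul_prod, map_sum, ← h1]
    exact (Finset.sum_congr rfl fun i _ => (h3 i).symm)
  obtain ⟨b, hb⟩ := exists_pow_eq_of_kum_eq_zero hLgal hζ _ h4
  have h5 : ∀ i, p ∣ (t i).val := by
    refine hind (fun i => (t i).val) ⟨b, ?_⟩
    rw [hb, Units.coe_prod]
    simp only [Units.val_pow_eq_pow_val]
  funext i
  have : NeZero p := ⟨hp.ne_zero⟩
  have h6 : (t i).val = 0 := Nat.eq_zero_of_dvd_of_lt (h5 i) (ZMod.val_lt _)
  exact (ZMod.val_eq_zero _).1 h6

end Fermat.Agent.S55.H23.Kum
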