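/-
Program C (S55), package C9a, leaf KUMMER (helper23), part 5: the dictionary
"`p ∣ ord_w u` at the primes `w` of `𝓞 L` outside `S`" `⟹` "at every valuation subring `A` of `ℚ̄`
over a prime `q ∉ S`, `u` is a `p`-th power of an element of `L` times an `A`-unit".
-/
import Mathlib
import Fermat.Prelude.Def_GroupCohomology_ContinuousUnramified
import Fermat.Agent.S55.H83.ClassNumber
import Fermat.Agent.S55.H87.CountDefs
import Fermat.Agent.S55.H23.KummerMap

set_option autoImplicit false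
set_option linter.unusedSectionVars false

namespace Fermat.Agent.S55.H23.Kum

open IsDedekindDomain HeightOneSpectrum NumberField ExtCitation Fermat.Agent.S55

/-- `ℚ̄`. -/
local notation "Qb" => AlgebraicClosure ℚ

/-- Algebraic integers lie in every valuation subring. -/
theorem mem_valSubring_of_isIntegral {Ω : Type*} [Field Ω] (A : ValuationSubring Ω) {x : Ω}
    (hx : IsIntegral ℤ x) : x ∈ A := by
  have h1 : IsIntegral A x := hx.tower_top
  obtain ⟨y, hy⟩ := IsIntegrallyClosed.isIntegral_iff.mp h1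
  rw [← hy]
  exact y.2

section ordv

variable {R : Type*} [CommRing R] [IsDedekindDomain R] {K : Type*} [Field K] [Algebra R K]
  [IsFractionRing R K]

theorem ordv_zpow (v : HeightOneSpectrum R) (x : Kˣ) (k : ℤ) :
    H83.ordv K v (x ^ k) = k * H83.ordv K v x := by
  simp [H83.ordv, map_zpow, toAdd_zpow]

theorem ordv_pow (v : HeightOneSpectrum R) (x : Kˣ) (n : ℕ) :
    H83.ordv K v (x ^ n) = n * H83.ordv K v x := by
  simp [H83.ordv, map_pow, toAdd_pow]

end ordv

variable (L : IntermediateField ℚ Qb) [NumberField L]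

theorem coe_integer_mem (A : ValuationSubring Qb) (x : 𝓞 L) : (((x : L)) : Qb) ∈ A :=
  mem_valSubring_of_isIntegral A (RingOfIntegers.isIntegral_coe x).algebraMap

/-- The inclusion of `𝓞 L` into a valuation subring of `ℚ̄`. -/
noncomputable def inclA (A : ValuationSubring Qb) : 𝓞 L →+* A :=
  ((algebraMap L Qb).comp (algebraMap (𝓞 L) L)).codRestrict A.toSubring
    fun x => coe_integer_mem L A x

/-- The prime of `𝓞 L` below a valuation subring of `ℚ̄`. -/
noncomputable def primeA (A : ValuationSubring Qb) : Ideal (𝓞 L) :=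
  (IsLocalRing.maximalIdeal A).comap (inclA L A)

instance primeA_isPrime (A : ValuationSubring Qb) : (primeA L A).IsPrime :=
  Ideal.comap_isPrime _ _

theorem mem_primeA_iff (A : ValuationSubring Qb) (x : 𝓞 L) :
    x ∈ primeA L A ↔ (((x : L)) : Qb) ∈ A.nonunits := by
  rw [ValuationSubring.mem_nonunits_iff_exists_mem_maximalIdeal]
  constructor
  · intro h
    exact ⟨coe_integer_mem L A x, h⟩
  · rintro ⟨_, h⟩
    exact h

theorem natCast_mem_primeA {A : ValuationSubring Qb} {q : ℕ} (hA : A.LiesOverPrime q) :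
    (((q : ℤ)) : 𝓞 L) ∈ primeA L A := by
  rw [mem_primeA_iff]
  have h : ((((q : ℤ) : 𝓞 L) : L) : Qb) = (q : Qb) := by simp
  rw [h]
  exact hA

theorem primeA_ne_bot {A : ValuationSubring Qb} {q : ℕ} (hq : q ≠ 0) (hA : A.LiesOverPrime q) :
    primeA L A ≠ ⊥ := by
  intro h
  have h1 := natCast_mem_primeA L hA
  rw [h, Ideal.mem_bot] at h1
  have h2 : ((q : ℤ) : 𝓞 L) ≠ 0 := by
    have : (q : ℤ) ≠ 0 := by exact_mod_cast hq
    simpa using this
  exact h2 h1

/-- The height one prime of `𝓞 L` below a valuation subring of `ℚ̄` over a prime number. -/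
noncomputable def placeA {A : ValuationSubring Qb} {q : ℕ} (hq : q ≠ 0) (hA : A.LiesOverPrime q) :
    HeightOneSpectrum (𝓞 L) :=
  ⟨primeA L A, inferInstance, primeA_ne_bot L hq hA⟩

/-- The prime below a place over `q ∉ S` is not above `S`. -/
theorem placeA_notMem_placesOver {S : Finset Nat.Primes} {A : ValuationSubring Qb}
    {q : Nat.Primes} (hq : q ∉ S) (hA : A.LiesOverPrime (q : ℕ)) :
    placeA L q.2.ne_zero hA ∉ H87.placesOver L S := by
  rw [H87.mem_placesOver]
  rintro ⟨q', hq'S, hq'⟩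
  have hne : (q : ℕ) ≠ (q' : ℕ) := fun h => hq (by rw [Subtype.ext h]; exact hq'S)
  have hcop : Nat.Coprime (q : ℕ) (q' : ℕ) := (Nat.coprime_primes q.2 q'.2).2 hne
  obtain ⟨a, b, hab⟩ := Nat.isCoprime_iff_coprime.2 hcop
  have h1 : (((q : ℕ) : ℤ) : 𝓞 L) ∈ primeA L A := natCast_mem_primeA L hA
  have h2 : (((q' : ℕ) : ℤ) : 𝓞 L) ∈ primeA L A := hq'
  have h3 : (1 : 𝓞 L) ∈ primeA L A := by
    have h4 : (1 : 𝓞 L) = (a : 𝓞 L) * (((q : ℕ) : ℤ) : 𝓞 L) + (b : 𝓞 L) * (((q' : ℕ) : ℤ) : 𝓞 L) := by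
      have := congrArg (fun z : ℤ => (z : 𝓞 L)) hab
      simp only [Int.cast_add, Int.cast_mul, Int.cast_one] at this
      exact this.symm
    rw [h4]
    exact Ideal.add_mem _ (Ideal.mul_mem_left _ _ h1) (Ideal.mul_mem_left _ _ h2)
  exact (primeA_isPrime L A).ne_top ((Ideal.eq_top_iff_one _).2 h3)

/-- Elements of `𝓞 L` outside the prime are units of `A`. -/
theorem inv_mem_of_notMem_primeA (A : ValuationSubring Qb) {x : 𝓞 L} (hx : x ∉ primeA L A) :
    ((((x : L)) : Qb))⁻¹ ∈ A := by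
  rw [mem_primeA_iff, ValuationSubring.mem_nonunits_iff_or, not_or, not_not] at hx
  exact hx.2

/-- Elements of `L` of valuation `≤ 1` at the prime below `A` lie in `A`. -/
theorem mem_of_valuation_le_one {A : ValuationSubring Qb} {q : ℕ} (hq : q ≠ 0)
    (hA : A.LiesOverPrime q) (t : L) (ht : (placeA L hq hA).valuation L t ≤ 1) :
    ((t : L) : Qb) ∈ A := by
  obtain ⟨n, d, hnd⟩ := (placeA L hq hA).exists_primeCompl_mul_eq_of_integer t ht
  have hd : (d : 𝓞 L) ∉ primeA L A := d.2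
  have hd0 : ((((d : 𝓞 L) : L)) : Qb) ≠ 0 := by
    intro h0
    apply hd
    rw [mem_primeA_iff, h0]
    exact A.nonunits.zero_mem
  have h1 : ((t : L) : Qb) = ((((n : 𝓞 L) : L)) : Qb) * ((((d : 𝓞 L) : L)) : Qb)⁻¹ := by
    rw [eq_mul_inv_iff_mul_eq₀ hd0]
    have := congrArg (fun z : L => (z : Qb)) hnd
    simpa using this
  rw [h1]
  exact A.mul_mem _ _ (coe_integer_mem L A n) (inv_mem_of_notMem_primeA L A hd)

variable {L}

/-- **DICT**: elements of `V_S(L)` are `p`-th powers times units at all places outside `S`. -/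
theorem goodOutside_of_mem_pDivGroup {p : ℕ} (S : Finset Nat.Primes) (u : (↥L)ˣ)
    (hu : u ∈ H87.pDivGroup L (H87.placesOver L S) p) :
    GoodOutside S L p (((u : ↥L)) : Qb) := by
  intro q hq A hA
  set w := placeA L q.2.ne_zero hA with hw
  obtain ⟨m, hm⟩ := hu w (placeA_notMem_placesOver L hq hA)
  obtain ⟨π, hπ⟩ := w.valuation_exists_uniformizer L
  have hπ0 : π ≠ 0 := by
    rintro rfl
    rw [map_zero] at hπ
    exact WithZero.exp_ne_zero hπ.symm
  have hordπ : H83.ordv L w (Units.mk0 π hπ0) = -1 :=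
    H83.ordv_eq_of_valuation_eq w _ _ (by rw [Units.val_mk0]; exact hπ)
  set c : (↥L)ˣ := Units.mk0 π hπ0 ^ (-m) with hc
  have hordc : H83.ordv L w c = m := by
    rw [hc, ordv_zpow, hordπ]
    ring
  -- `t = u / c ^ p` has valuation `1` at `w`
  have hordt : H83.ordv L w (u * (c ^ p)⁻¹) = 0 := by
    rw [H83.ordv_mul, H83.ordv_inv, ordv_pow, hordc, hm]
    ring
  have hordt' : H83.ordv L w ((u * (c ^ p)⁻¹)⁻¹) = 0 := by
    rw [H83.ordv_inv, hordt, neg_zero]
  have h1 := (H83.ordv_eq_zero_iff w _).1 hordt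
  have h2 := (H83.ordv_eq_zero_iff w _).1 hordt'
  have hm1 := mem_of_valuation_le_one L q.2.ne_zero hA _ h1.le
  have hm2 := mem_of_valuation_le_one L q.2.ne_zero hA _ h2.le
  have hc0 : (((c : ↥L)) : Qb) ≠ 0 := coe_unit_ne_zero c
  have hu0 : (((u : ↥L)) : Qb) ≠ 0 := coe_unit_ne_zero u
  refine ⟨((c : ↥L) : Qb), (c : ↥L).2, hc0, ?_, ?_⟩
  · have e : (((u : ↥L)) : Qb) / (((c : ↥L)) : Qb) ^ p =
        ((((u * (c ^ p)⁻¹ : (↥L)ˣ) : ↥L)) : Qb) := by
      simp [div_eq_mul_inv]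
    rw [e]
    exact hm1
  · have e : (((c : ↥L)) : Qb) ^ p / (((u : ↥L)) : Qb) =
        (((((u * (c ^ p)⁻¹)⁻¹ : (↥L)ˣ) : ↥L)) : Qb) := by
      simp [div_eq_mul_inv, mul_comm]
    rw [e]
    exact hm2

end Fermat.Agent.S55.H23.Kum
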