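/-
Program C (S55), package C9a, leaf KUMMER (helper23), final statement (KU12) of helper87:
for every level field `L` there is an additive map
`κ : V_S(L) → continuousH1S S (D p (baseRep p L))` whose kernel consists of `p`-th powers,
where `V_S(L) = H87.pDivGroup L (H87.placesOver L S) p`.
-/
import Mathlib
import Fermat.Prelude.Def_GroupCohomology_ContinuousUnramified
import Fermat.Agent.S55.H87.CountDefs
import Fermat.Agent.S55.H23.KummerMap
import Fermat.Agent.S55.H23.KummerDict

set_option autoImplicit false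

namespace Fermat.Agent.S55.H23

open ExtCitation groupCohomology Fermat.Agent.S55.H70 Fermat.Agent.S55

/-- `ℚ̄`. -/
local notation "Qb" => AlgebraicClosure ℚ

variable {p : ℕ} [Fact p.Prime]

/-- **(KU12)** The Kummer map on `V_S(L)`, with values in the level-`S`-constant classes of
`H¹(G_ℚ, F_L')`, and kernel contained in the `p`-th powers. -/
theorem exists_kummerHom (S : Finset Nat.Primes) (hpS : pPrime p ∈ S)
    (L : IntermediateField ℚ Qb) (hL : IsLevelField p S L) [NumberField L] :
    ∃ κ : Additive ↥(H87.pDivGroup L (H87.placesOver L S) p) →+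
        ↥(continuousH1S S (D p (baseRep p L))),
      ∀ a, κ a = 0 →
        ((Additive.toMul a : ↥(H87.pDivGroup L (H87.placesOver L S) p)) : (↥L)ˣ) ∈
          H87.powGroup L p := by
  obtain ⟨hLur, hLgal, -⟩ := hL
  have hp : p.Prime := Fact.out
  have : NeZero (p : Qb) := ⟨Nat.cast_ne_zero.2 hp.ne_zero⟩
  obtain ⟨ζ, hζ⟩ := HasEnoughRootsOfUnity.exists_primitiveRoot Qb p
  refine ⟨AddMonoidHom.mk' (fun a =>
      ⟨Kum.kum hζ ((Additive.toMul a : ↥(H87.pDivGroup L (H87.placesOver L S) p)) : (↥L)ˣ),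
        Kum.kum_mem_continuousH1S hpS hLur hLgal hζ _
          (Kum.goodOutside_of_mem_pDivGroup S _ (Additive.toMul a).2)⟩)
      (fun a b => Subtype.ext (Kum.kum_mul hζ _ _)), fun a ha => ?_⟩
  have h0 : Kum.kum hζ
      ((Additive.toMul a : ↥(H87.pDivGroup L (H87.placesOver L S) p)) : (↥L)ˣ) = 0 :=
    congrArg Subtype.val ha
  obtain ⟨b, hb⟩ := Kum.exists_pow_eq_of_kum_eq_zero hLgal hζ _ h0
  have hb0 : b ≠ 0 := by
    rintro rfl
    rw [zero_pow hp.ne_zero] at hb
    exact (Units.ne_zero _) hb.symm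
  rw [H87.mem_powGroup]
  exact ⟨Units.mk0 b hb0, Units.ext (by rw [Units.val_pow_eq_pow_val, Units.val_mk0, hb])⟩

end Fermat.Agent.S55.H23
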