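/-
Program C (S55), package C9a (helper23): the leaves `H87.KummerHomStatement p S` (KU1 + KU2) and
`H87.KummerStatement p S (cNum p S) (dNum S)` (KUMMER), verbatim, for `p ∈ S`.
-/
import Fermat.Agent.S55.H87.KummerAsm
import Fermat.Agent.S55.H23.KummerFinal

set_option autoImplicit false

namespace Fermat.Agent.S55.H23

open ExtCitation Fermat.Agent.S55

variable {p : ℕ} [Fact p.Prime]

/-- **Leaf (KU1 + KU2)**: the Kummer homomorphism statement of `H87/KummerAsm.lean`. -/
theorem kummerHomStatement (S : Finset Nat.Primes) (hpS : pPrime p ∈ S) :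
    H87.KummerHomStatement p S :=
  fun L hL _ => exists_kummerHom S hpS L hL

/-- **Leaf KUMMER** of the C9a count, at the shared numbers `c = cNum p S`, `d = dNum S`. -/
theorem kummerStatement (S : Finset Nat.Primes) (hpS : pPrime p ∈ S) :
    H87.KummerStatement p S (H87.cNum p S) (H87.dNum S) :=
  H87.kummerStatement_of_hom (kummerHomStatement S hpS)

end Fermat.Agent.S55.H23
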