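/-
Program C (S55), package C9a, leaf KUMMER (helper23), part 1: the discrete logarithm on the
`p`-th roots of unity of `ℚ̄` with respect to a primitive root `ζ`, and its compatibility with the
Prelude's mod `p` cyclotomic character `ExtCitation.cycloChar`.
-/
import Mathlib
import Fermat.Prelude.Def_GroupCohomology_ContinuousUnramified

set_option autoImplicit false

namespace Fermat.Agent.S55.H23.Kum

open ExtCitation

/-- `ℚ̄`. -/
local notation "Qb" => AlgebraicClosure ℚ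

variable {p : ℕ} [Fact p.Prime]

/-- The discrete logarithm in base `ζ` (junk value `0` outside the powers of `ζ`). -/
noncomputable def dlog (p : ℕ) (ζ η : Qb) : ZMod p :=
  open Classical in
  if h : ∃ k : ℕ, ζ ^ k = η then ((Classical.choose h : ℕ) : ZMod p) else 0

theorem pow_eq_pow_iff {ζ : Qb} (hζ : IsPrimitiveRoot ζ p) (a b : ℕ) :
    ζ ^ a = ζ ^ b ↔ a ≡ b [MOD p] := by
  have hp : p ≠ 0 := (Fact.out : p.Prime).ne_zero
  have hord : orderOf ζ = p := hζ.eq_orderOf.symm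
  obtain ⟨u, rfl⟩ := hζ.isUnit hp
  rw [← Units.val_pow_eq_pow_val, ← Units.val_pow_eq_pow_val, ← Units.ext_iff,
    pow_eq_pow_iff_modEq, ← orderOf_units, hord]

theorem dlog_pow {ζ : Qb} (hζ : IsPrimitiveRoot ζ p) (k : ℕ) :
    dlog p ζ (ζ ^ k) = (k : ZMod p) := by
  have h : ∃ k' : ℕ, ζ ^ k' = ζ ^ k := ⟨k, rfl⟩
  unfold dlog
  rw [dif_pos h]
  have h1 := Classical.choose_spec h
  rw [pow_eq_pow_iff hζ] at h1
  exact (ZMod.natCast_eq_natCast_iff _ _ _).2 h1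

theorem exists_pow_eq {ζ : Qb} (hζ : IsPrimitiveRoot ζ p) {η : Qb} (hη : η ^ p = 1) :
    ∃ k : ℕ, ζ ^ k = η := by
  obtain ⟨i, -, hi⟩ := hζ.eq_pow_of_pow_eq_one hη
  exact ⟨i, hi⟩

theorem pow_dlog {ζ : Qb} (hζ : IsPrimitiveRoot ζ p) {η : Qb} (hη : η ^ p = 1) :
    ζ ^ (dlog p ζ η).val = η := by
  obtain ⟨k, rfl⟩ := exists_pow_eq hζ hη
  rw [dlog_pow hζ, pow_eq_pow_iff hζ, ZMod.val_natCast]
  exact Nat.mod_modEq k p

theorem dlog_one {ζ : Qb} (hζ : IsPrimitiveRoot ζ p) : dlog p ζ 1 = 0 := by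
  have h := dlog_pow hζ 0
  simpa using h

theorem dlog_mul {ζ : Qb} (hζ : IsPrimitiveRoot ζ p) {η₁ η₂ : Qb} (h₁ : η₁ ^ p = 1)
    (h₂ : η₂ ^ p = 1) : dlog p ζ (η₁ * η₂) = dlog p ζ η₁ + dlog p ζ η₂ := by
  obtain ⟨k₁, rfl⟩ := exists_pow_eq hζ h₁
  obtain ⟨k₂, rfl⟩ := exists_pow_eq hζ h₂
  rw [← pow_add, dlog_pow hζ, dlog_pow hζ, dlog_pow hζ, Nat.cast_add]

theorem dlog_eq_zero_iff {ζ : Qb} (hζ : IsPrimitiveRoot ζ p) {η : Qb} (hη : η ^ p = 1) :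
    dlog p ζ η = 0 ↔ η = 1 := by
  constructor
  · intro h
    have h1 := pow_dlog hζ hη
    rw [h, ZMod.val_zero, pow_zero] at h1
    exact h1.symm
  · rintro rfl
    exact dlog_one hζ

omit [Fact p.Prime] in
theorem inv_pow_eq_one {η : Qb} (hη : η ^ p = 1) : η⁻¹ ^ p = 1 := by
  rw [inv_pow, hη, inv_one]

theorem dlog_inv {ζ : Qb} (hζ : IsPrimitiveRoot ζ p) {η : Qb} (hη : η ^ p = 1) :
    dlog p ζ η⁻¹ = -dlog p ζ η := by
  have hη0 : η ≠ 0 := by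
    rintro rfl
    rw [zero_pow (Fact.out : p.Prime).ne_zero] at hη
    exact zero_ne_one hη
  have h := dlog_mul hζ hη (inv_pow_eq_one hη)
  rw [mul_inv_cancel₀ hη0, dlog_one hζ] at h
  exact eq_neg_of_add_eq_zero_right h.symm

theorem dlog_div {ζ : Qb} (hζ : IsPrimitiveRoot ζ p) {η₁ η₂ : Qb} (h₁ : η₁ ^ p = 1)
    (h₂ : η₂ ^ p = 1) : dlog p ζ (η₁ / η₂) = dlog p ζ η₁ - dlog p ζ η₂ := by
  rw [div_eq_mul_inv, dlog_mul hζ h₁ (inv_pow_eq_one h₂), dlog_inv hζ h₂, sub_eq_add_neg]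

/-- The Galois action on `p`-th roots of unity is through `cycloExp`. -/
theorem map_eq_pow_cycloExp (σ : Qb ≃ₐ[ℚ] Qb) {η : Qb} (hη : η ^ p = 1) :
    σ η = η ^ cycloExp p σ := by
  have : NeZero p := ⟨(Fact.out : p.Prime).ne_zero⟩
  have hη0 : η ≠ 0 := by
    rintro rfl
    rw [zero_pow (NeZero.ne p)] at hη
    exact zero_ne_one hη
  have ht : Units.mk0 η hη0 ∈ rootsOfUnity p Qb := by
    rw [mem_rootsOfUnity]
    ext
    simpa using hη
  have := modularCyclotomicCharacter.spec Qb (card_rootsOfUnity_eq_self p)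
    (σ : Qb ≃+* Qb) ht
  simpa [cycloExp] using this

omit [Fact p.Prime] in
theorem map_pow_eq_one (σ : Qb ≃ₐ[ℚ] Qb) {η : Qb} (hη : η ^ p = 1) : σ η ^ p = 1 := by
  rw [← map_pow, hη, map_one]

/-- `dlog (σ η) = χ(σ) · dlog η`. -/
theorem dlog_map {ζ : Qb} (hζ : IsPrimitiveRoot ζ p) (σ : Qb ≃ₐ[ℚ] Qb) {η : Qb}
    (hη : η ^ p = 1) : dlog p ζ (σ η) = (cycloChar p σ : ZMod p) * dlog p ζ η := by
  obtain ⟨k, rfl⟩ := exists_pow_eq hζ hη
  rw [map_eq_pow_cycloExp σ hη, ← pow_mul, dlog_pow hζ, dlog_pow hζ, coe_cycloChar,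
    Nat.cast_mul, mul_comm]

end Fermat.Agent.S55.H23.Kum
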