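/-
Program C (S55), package C9a, leaf KUMMER (helper23), part 2: the Kummer cocycle in module form.

For a level field `L` (Galois over `ℚ`), `X = G_ℚ / G_L`, and a function `β : X → ℚ̄ˣ` whose
`p`-th power is `G_ℚ`-invariant (`g (β (g⁻¹ x)) ^ p = β x ^ p`), the function
`g ↦ (x ↦ log_ζ (g (β (g⁻¹ x)) / β x))` is a 1-cocycle of `G_ℚ` with values in
`F_L' = D p (baseRep p L)` (functions on `X` with the twisted action).
-/
import Mathlib
import Fermat.Prelude.Def_GroupCohomology_ContinuousUnramified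
import Fermat.Agent.S55.H87.BaseAdm
import Fermat.Agent.S55.H23.KummerLog

set_option autoImplicit false

namespace Fermat.Agent.S55.H23.Kum

open ExtCitation groupCohomology Fermat.Agent.S55.H70

/-- `ℚ̄`. -/
local notation "Qb" => AlgebraicClosure ℚ

variable {p : ℕ} [Fact p.Prime] (L : IntermediateField ℚ Qb)

/-- The linear functional on `𝔽_p[G_ℚ/G_L]` with prescribed values on the basis. -/
noncomputable def fnl (f : GQ ⧸ L.fixingSubgroup → ZMod p) :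
    Module.Dual (ZMod p) (MonoidAlgebra (ZMod p) (GQ ⧸ L.fixingSubgroup)) :=
  (Finsupp.linearCombination (ZMod p) f) ∘ₗ (MonoidAlgebra.coeffLinearEquiv (ZMod p)).toLinearMap

theorem fnl_single (f : GQ ⧸ L.fixingSubgroup → ZMod p) (x : GQ ⧸ L.fixingSubgroup)
    (r : ZMod p) : fnl L f (MonoidAlgebra.single x r) = r * f x := by
  simp [fnl]

theorem dual_ext {φ ψ : Module.Dual (ZMod p) (MonoidAlgebra (ZMod p) (GQ ⧸ L.fixingSubgroup))}
    (h : ∀ x, φ (MonoidAlgebra.single x 1) = ψ (MonoidAlgebra.single x 1)) : φ = ψ := by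
  apply MonoidAlgebra.lhom_ext'
  intro x
  ext
  simpa using h x

/-- The twisted dual action, evaluated on a basis vector. -/
theorem rho_apply_single (g : GQ)
    (φ : Module.Dual (ZMod p) (MonoidAlgebra (ZMod p) (GQ ⧸ L.fixingSubgroup)))
    (x : GQ ⧸ L.fixingSubgroup) :
    ((D p (baseRep p L)).ρ g φ) (MonoidAlgebra.single x 1) =
      (cycloChar p g : ZMod p) * φ (MonoidAlgebra.single (g⁻¹ • x) 1) := by
  rw [Rep.dualTwist_ρ_apply]
  simp [Representation.ofMulAction_single]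

/-- The values of the Kummer cochain attached to `β`. -/
noncomputable def kfun (ζ : Qb) (β : GQ ⧸ L.fixingSubgroup → Qb) (g : GQ)
    (x : GQ ⧸ L.fixingSubgroup) : ZMod p :=
  dlog p ζ (g (β (g⁻¹ • x)) / β x)

/-- The Kummer cochain attached to `β`, with values in `F_L' = D p (baseRep p L)`. -/
noncomputable def kcoc (ζ : Qb) (β : GQ ⧸ L.fixingSubgroup → Qb) (g : GQ) :
    Module.Dual (ZMod p) (MonoidAlgebra (ZMod p) (GQ ⧸ L.fixingSubgroup)) :=
  fnl L (kfun L ζ β g)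

theorem kcoc_single (ζ : Qb) (β : GQ ⧸ L.fixingSubgroup → Qb) (g : GQ)
    (x : GQ ⧸ L.fixingSubgroup) :
    kcoc L ζ β g (MonoidAlgebra.single x 1) = dlog p ζ (g (β (g⁻¹ • x)) / β x) := by
  rw [kcoc, fnl_single, one_mul, kfun]

/-- Admissible functions: nonvanishing, with `G_ℚ`-invariant `p`-th power. -/
def Adm (p : ℕ) (β : GQ ⧸ L.fixingSubgroup → Qb) : Prop :=
  (∀ x, β x ≠ 0) ∧ ∀ (g : GQ) (x : GQ ⧸ L.fixingSubgroup), g (β (g⁻¹ • x)) ^ p = β x ^ p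

variable {L}

omit [Fact p.Prime] in
theorem Adm.ratio_pow {β : GQ ⧸ L.fixingSubgroup → Qb} (hβ : Adm L p β) (g : GQ)
    (x : GQ ⧸ L.fixingSubgroup) : (g (β (g⁻¹ • x)) / β x) ^ p = 1 := by
  rw [div_pow, hβ.2 g x]
  exact div_self (pow_ne_zero p (hβ.1 x))

omit [Fact p.Prime] in
theorem Adm.map_ne_zero {β : GQ ⧸ L.fixingSubgroup → Qb} (hβ : Adm L p β) (g : GQ)
    (x : GQ ⧸ L.fixingSubgroup) : g (β x) ≠ 0 := by
  rw [Ne, map_eq_zero]
  exact hβ.1 x

omit [Fact p.Prime] in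
theorem Adm.mul {β₁ β₂ : GQ ⧸ L.fixingSubgroup → Qb} (h₁ : Adm L p β₁) (h₂ : Adm L p β₂) :
    Adm L p (β₁ * β₂) := by
  refine ⟨fun x => mul_ne_zero (h₁.1 x) (h₂.1 x), fun g x => ?_⟩
  simp only [Pi.mul_apply, map_mul, mul_pow]
  rw [h₁.2 g x, h₂.2 g x]

/-- **The cocycle identity.** -/
theorem kcoc_mul {ζ : Qb} (hζ : IsPrimitiveRoot ζ p) {β : GQ ⧸ L.fixingSubgroup → Qb}
    (hβ : Adm L p β) (g h : GQ) :
    kcoc L ζ β (g * h) = (D p (baseRep p L)).ρ g (kcoc L ζ β h) + kcoc L ζ β g := by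
  apply dual_ext
  intro x
  rw [LinearMap.add_apply, rho_apply_single, kcoc_single, kcoc_single, kcoc_single,
    ← dlog_map hζ g (hβ.ratio_pow h (g⁻¹ • x)),
    ← dlog_mul hζ (map_pow_eq_one g (hβ.ratio_pow h (g⁻¹ • x))) (hβ.ratio_pow g x)]
  congr 1
  have h1 : (g * h)⁻¹ • x = h⁻¹ • g⁻¹ • x := by rw [mul_inv_rev, mul_smul]
  have h2 : g (β (g⁻¹ • x)) ≠ 0 := hβ.map_ne_zero g _
  rw [h1, map_div₀, AlgEquiv.mul_apply, div_mul_div_cancel₀ h2]

/-- Multiplicativity in `β`. -/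
theorem kcoc_mul_fun {ζ : Qb} (hζ : IsPrimitiveRoot ζ p) {β₁ β₂ : GQ ⧸ L.fixingSubgroup → Qb}
    (h₁ : Adm L p β₁) (h₂ : Adm L p β₂) (g : GQ) :
    kcoc (p := p) L ζ (β₁ * β₂) g = kcoc L ζ β₁ g + kcoc L ζ β₂ g := by
  apply dual_ext
  intro x
  rw [LinearMap.add_apply, kcoc_single, kcoc_single, kcoc_single,
    ← dlog_mul hζ (h₁.ratio_pow g x) (h₂.ratio_pow g x)]
  congr 1
  simp only [Pi.mul_apply, map_mul]
  rw [mul_div_mul_comm]

omit [Fact p.Prime] in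
/-- Functions with values in the `p`-th roots of unity are admissible. -/
theorem adm_of_pow_eq_one {ξ : GQ ⧸ L.fixingSubgroup → Qb} (hξ : ∀ x, ξ x ^ p = 1) (hp : p ≠ 0) :
    Adm L p ξ := by
  refine ⟨fun x h0 => ?_, fun g x => ?_⟩
  · have h1 := hξ x
    rw [h0, zero_pow hp] at h1
    exact zero_ne_one h1
  · rw [← map_pow, hξ, hξ, map_one]

/-- The Kummer cochain of a function with values in `μ_p` is a coboundary. -/
theorem kcoc_of_pow_eq_one {ζ : Qb} (hζ : IsPrimitiveRoot ζ p)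
    {ξ : GQ ⧸ L.fixingSubgroup → Qb} (hξ : ∀ x, ξ x ^ p = 1) (g : GQ) :
    kcoc L ζ ξ g = (D p (baseRep p L)).ρ g (fnl L fun x => dlog p ζ (ξ x)) -
      fnl L fun x => dlog p ζ (ξ x) := by
  apply dual_ext
  intro x
  rw [LinearMap.sub_apply, rho_apply_single, kcoc_single, fnl_single, fnl_single, one_mul,
    one_mul, dlog_div hζ (map_pow_eq_one g (hξ _)) (hξ x), dlog_map hζ g (hξ _)]

theorem dlog_inj {ζ : Qb} (hζ : IsPrimitiveRoot ζ p) {η₁ η₂ : Qb} (h₁ : η₁ ^ p = 1)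
    (h₂ : η₂ ^ p = 1) (h : dlog p ζ η₁ = dlog p ζ η₂) : η₁ = η₂ := by
  rw [← pow_dlog hζ h₁, ← pow_dlog hζ h₂, h]

/-- If the Kummer cochain of `β` is the coboundary of `φ`, then `β` can be corrected by a
`μ_p`-valued function to a `G_ℚ`-invariant function. -/
theorem exists_invariant_of_coboundary {ζ : Qb} (hζ : IsPrimitiveRoot ζ p)
    {β : GQ ⧸ L.fixingSubgroup → Qb} (hβ : Adm L p β)
    (φ : Module.Dual (ZMod p) (MonoidAlgebra (ZMod p) (GQ ⧸ L.fixingSubgroup)))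
    (h : ∀ g : GQ, kcoc L ζ β g = (D p (baseRep p L)).ρ g φ - φ) :
    ∃ β' : GQ ⧸ L.fixingSubgroup → Qb, (∀ x, β' x ^ p = β x ^ p) ∧
      ∀ (g : GQ) (x : GQ ⧸ L.fixingSubgroup), g (β' (g⁻¹ • x)) = β' x := by
  have hp : p ≠ 0 := (Fact.out : p.Prime).ne_zero
  set ξ : GQ ⧸ L.fixingSubgroup → Qb := fun x => ζ ^ (φ (MonoidAlgebra.single x 1)).val with hξdef
  have hξ : ∀ x, ξ x ^ p = 1 := fun x => by
    rw [hξdef]
    simp only
    rw [← pow_mul, mul_comm, pow_mul, hζ.pow_eq_one, one_pow]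
  have hξlog : ∀ x, dlog p ζ (ξ x) = φ (MonoidAlgebra.single x 1) := fun x => by
    rw [hξdef]
    simp only
    rw [dlog_pow hζ]
    have : NeZero p := ⟨hp⟩
    rw [ZMod.natCast_val, ZMod.cast_id', id]
  have hξ0 : ∀ x, ξ x ≠ 0 := (adm_of_pow_eq_one (L := L) hξ hp).1
  refine ⟨fun x => β x / ξ x, fun x => by rw [div_pow, hξ, div_one], fun g x => ?_⟩
  -- the two ratios have the same logarithm
  have h1 : g (β (g⁻¹ • x)) / β x = g (ξ (g⁻¹ • x)) / ξ x := by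
    apply dlog_inj hζ (hβ.ratio_pow g x) ((adm_of_pow_eq_one (L := L) hξ hp).ratio_pow g x)
    have h2 := congrArg (fun ψ : Module.Dual (ZMod p)
      (MonoidAlgebra (ZMod p) (GQ ⧸ L.fixingSubgroup)) => ψ (MonoidAlgebra.single x 1)) (h g)
    simp only at h2
    rw [kcoc_single, LinearMap.sub_apply, rho_apply_single] at h2
    rw [h2, dlog_div hζ (map_pow_eq_one g (hξ _)) (hξ x), dlog_map hζ g (hξ _), hξlog, hξlog]
  have h3 : g (ξ (g⁻¹ • x)) ≠ 0 := by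
    rw [Ne, map_eq_zero]
    exact hξ0 _
  rw [map_div₀]
  rw [div_eq_div_iff (hβ.1 x) (hξ0 x)] at h1
  rw [div_eq_div_iff h3 (hξ0 x)]
  linear_combination h1

/-- Level constancy: if `s` fixes `L` and the values of `β`, then `kcoc β (g s) = kcoc β g`. -/
theorem kcoc_mul_right_of_fix (hL : IsGalois ℚ L) (ζ : Qb) (β : GQ ⧸ L.fixingSubgroup → Qb)
    (g s : GQ) (hs : s ∈ L.fixingSubgroup) (hsβ : ∀ x, s (β x) = β x) :
    kcoc L ζ β (g * s) = kcoc (p := p) L ζ β g := by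
  apply dual_ext
  intro x
  rw [kcoc_single, kcoc_single]
  have h1 : (g * s)⁻¹ • x = g⁻¹ • x := by
    rw [mul_inv_rev, mul_smul]
    exact Fermat.Agent.S55.H87.smul_coset_eq L hL (L.fixingSubgroup.inv_mem hs) _
  rw [h1, AlgEquiv.mul_apply, hsβ]

end Fermat.Agent.S55.H23.Kum
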