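/-
Program C (S55), package C9a, leaf K-SURJ (helper23), part 1: Hilbert 90 by resolvents, directly
in `G_ℚ` acting on `ℚ̄`.

`exists_resolvent` : let `L ≤ E` be subfields of `ℚ̄`, `E` finite Galois over `ℚ`, `ζ ∈ L` with
`ζ ^ p = 1`, and `χ : G_ℚ → ZMod p` additive on `G_L` and constant on the cosets of `G_E` in
`G_L`.  Then there is `α ∈ E`, `α ≠ 0`, with `σ α = ζ ^ χ(σ) · α` for all `σ ∈ G_L`.
-/
import Mathlib
import Fermat.Prelude.Def_GroupCohomology_ContinuousUnramified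
import Fermat.Agent.S55.H23.KummerMap

set_option autoImplicit false

namespace Fermat.Agent.S55.H23.Kum

open ExtCitation groupCohomology Fermat.Agent.S55.H70

/-- `ℚ̄`. -/
local notation "Qb" => AlgebraicClosure ℚ

local instance isAlgebraicQbar_h23s : Algebra.IsAlgebraic ℚ (AlgebraicClosure ℚ) :=
  AlgebraicClosure.isAlgebraic ℚ
local instance isAlgClosureQbar_h23s : IsAlgClosure ℚ (AlgebraicClosure ℚ) :=
  ⟨inferInstance, inferInstance⟩
local instance isGaloisQbar_h23s : IsGalois ℚ (AlgebraicClosure ℚ) :=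
  IsAlgClosure.isGalois ℚ (AlgebraicClosure ℚ)

variable {p : ℕ} [Fact p.Prime]

theorem pow_val_add {ζ : Qb} (hζ : ζ ^ p = 1) (k l : ZMod p) :
    ζ ^ (k + l).val = ζ ^ k.val * ζ ^ l.val := by
  have hp : NeZero p := ⟨(Fact.out : p.Prime).ne_zero⟩
  rw [ZMod.val_add, ← pow_add]
  conv_rhs => rw [← Nat.mod_add_div (k.val + l.val) p]
  rw [pow_add, pow_mul, hζ, one_pow, mul_one]

theorem pow_val_zero (ζ : Qb) : ζ ^ (0 : ZMod p).val = 1 := by
  rw [ZMod.val_zero, pow_zero]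

/-- **Hilbert 90 by resolvents.** -/
theorem exists_resolvent {ζ : Qb} (hζ : ζ ^ p = 1) (L E : IntermediateField ℚ Qb) (hLE : L ≤ E)
    [FiniteDimensional ℚ E] (hE : IsGalois ℚ E) (hζL : ζ ∈ L) (χ : GQ → ZMod p)
    (hadd : ∀ σ ∈ L.fixingSubgroup, ∀ τ ∈ L.fixingSubgroup, χ (σ * τ) = χ σ + χ τ)
    (hK : ∀ σ ∈ L.fixingSubgroup, ∀ s ∈ E.fixingSubgroup, χ (σ * s) = χ σ) :
    ∃ α ∈ E, α ≠ 0 ∧ ∀ σ ∈ L.fixingSubgroup, σ α = ζ ^ (χ σ).val * α := by
  classical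
  have hp : p ≠ 0 := (Fact.out : p.Prime).ne_zero
  have hζ0 : ζ ≠ 0 := by
    rintro rfl
    rw [zero_pow hp] at hζ
    exact zero_ne_one hζ
  have hfinq : Finite (GQ ⧸ E.fixingSubgroup) :=
    Subgroup.quotient_finite_of_isOpen _ (IntermediateField.fixingSubgroup_isOpen E)
  have hfi : (E.fixingSubgroup).FiniteIndex := Subgroup.finiteIndex_of_finite_quotient
  let N : Subgroup ↥L.fixingSubgroup := E.fixingSubgroup.subgroupOf L.fixingSubgroup
  have hfinN : Finite (↥L.fixingSubgroup ⧸ N) := inferInstance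
  let _ : Fintype (↥L.fixingSubgroup ⧸ N) := Fintype.ofFinite _
  -- representatives
  let r : (↥L.fixingSubgroup ⧸ N) → GQ := fun q => ((Quotient.out q : ↥L.fixingSubgroup) : GQ)
  have hrH : ∀ q, r q ∈ L.fixingSubgroup := fun q => (Quotient.out q).2
  -- the embeddings of `E` given by the representatives are pairwise distinct
  let ρ : (↥L.fixingSubgroup ⧸ N) → (E →ₐ[ℚ] Qb) := fun q =>
    ((r q : Qb ≃ₐ[ℚ] Qb) : Qb →ₐ[ℚ] Qb).comp E.val
  have hρ : ∀ q (x : E), ρ q x = r q (x : Qb) := fun q x => rfl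
  have hρinj : Function.Injective ρ := by
    intro q q' h
    have h1 : (r q)⁻¹ * r q' ∈ E.fixingSubgroup := by
      rw [IntermediateField.mem_fixingSubgroup_iff]
      intro x hx
      have h2 := DFunLike.congr_fun h ⟨x, hx⟩
      rw [hρ, hρ] at h2
      rw [AlgEquiv.mul_apply, ← h2]
      exact (r q).symm_apply_apply x
    have h3 : (Quotient.out q)⁻¹ * Quotient.out q' ∈ N := h1
    have h4 : (QuotientGroup.mk (Quotient.out q) : ↥L.fixingSubgroup ⧸ N) =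
        QuotientGroup.mk (Quotient.out q') := QuotientGroup.eq.2 h3
    rwa [QuotientGroup.out_eq', QuotientGroup.out_eq'] at h4
  have hli : LinearIndependent Qb (fun q => (ρ q).toLinearMap) :=
    (linearIndependent_toLinearMap ℚ E Qb).comp ρ hρinj
  -- the coefficients of the resolvent
  let c : (↥L.fixingSubgroup ⧸ N) → Qb := fun q => ζ ^ (-(χ (r q))).val
  have hc0 : ∀ q, c q ≠ 0 := fun q => pow_ne_zero _ hζ0
  have hne : ∑ q, c q • (ρ q).toLinearMap ≠ 0 := by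
    intro h0
    exact hc0 _ (Fintype.linearIndependent_iff.1 hli c h0 (QuotientGroup.mk 1))
  obtain ⟨θ, hθ⟩ : ∃ θ : E, (∑ q, c q • (ρ q).toLinearMap) θ ≠ 0 := by
    by_contra hcon
    push Not at hcon
    exact hne (LinearMap.ext hcon)
  have hθ' : ∑ q, c q * r q (θ : Qb) ≠ 0 := by
    intro h0
    apply hθ
    rw [LinearMap.sum_apply]
    rw [← h0]
    exact Finset.sum_congr rfl fun q _ => rfl
  have hζE : ∀ n : ℕ, ζ ^ n ∈ E := fun n => pow_mem (hLE hζL) n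
  refine ⟨∑ q, c q * r q (θ : Qb), ?_, hθ', ?_⟩
  · exact E.sum_mem fun q _ => E.mul_mem (hζE _) (map_mem_of_isGalois hE (r q) θ.2)
  · intro σ hσ
    have hσζ : ∀ n : ℕ, σ (ζ ^ n) = ζ ^ n := fun n => by
      rw [map_pow, (IntermediateField.mem_fixingSubgroup_iff L σ).1 hσ ζ hζL]
    -- the action on the representatives
    have hkey : ∀ q : ↥L.fixingSubgroup ⧸ N, ∃ s ∈ E.fixingSubgroup,
        r ((⟨σ, hσ⟩ : ↥L.fixingSubgroup) • q) = σ * r q * s := by
      intro q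
      obtain ⟨h, hh⟩ := QuotientGroup.mk_out_eq_mul N ((⟨σ, hσ⟩ : ↥L.fixingSubgroup) * Quotient.out q)
      have e1 : ((⟨σ, hσ⟩ : ↥L.fixingSubgroup) • q) =
          (QuotientGroup.mk ((⟨σ, hσ⟩ : ↥L.fixingSubgroup) * Quotient.out q) :
            ↥L.fixingSubgroup ⧸ N) := by
        conv_lhs => rw [← QuotientGroup.out_eq' q]
        rfl
      refine ⟨((h : ↥L.fixingSubgroup) : GQ), h.2, ?_⟩
      show ((Quotient.out ((⟨σ, hσ⟩ : ↥L.fixingSubgroup) • q) : ↥L.fixingSubgroup) : GQ) = _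
      rw [e1, hh]
      rfl
    have hterm : ∀ q : ↥L.fixingSubgroup ⧸ N, σ (c q * r q (θ : Qb)) =
        ζ ^ (χ σ).val * (c ((⟨σ, hσ⟩ : ↥L.fixingSubgroup) • q) *
          r ((⟨σ, hσ⟩ : ↥L.fixingSubgroup) • q) (θ : Qb)) := by
      intro q
      obtain ⟨s, hs, hrs⟩ := hkey q
      have hsθ : s⁻¹ (θ : Qb) = θ :=
        (IntermediateField.mem_fixingSubgroup_iff E _).1 (E.fixingSubgroup.inv_mem hs) _ θ.2
      have e2 : σ (r q (θ : Qb)) = r ((⟨σ, hσ⟩ : ↥L.fixingSubgroup) • q) (θ : Qb) := by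
        have e3 : σ * r q = r ((⟨σ, hσ⟩ : ↥L.fixingSubgroup) • q) * s⁻¹ := by
          rw [hrs, mul_inv_cancel_right]
        rw [← AlgEquiv.mul_apply, e3, AlgEquiv.mul_apply, hsθ]
      have e4 : χ (r ((⟨σ, hσ⟩ : ↥L.fixingSubgroup) • q)) = χ σ + χ (r q) := by
        rw [hrs, hK _ (L.fixingSubgroup.mul_mem hσ (hrH q)) s hs, hadd σ hσ _ (hrH q)]
      have e5 : c q = ζ ^ (χ σ).val * c ((⟨σ, hσ⟩ : ↥L.fixingSubgroup) • q) := by
        show ζ ^ (-(χ (r q))).val = ζ ^ (χ σ).val *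
          ζ ^ (-(χ (r ((⟨σ, hσ⟩ : ↥L.fixingSubgroup) • q)))).val
        rw [e4, ← pow_val_add hζ]
        congr 2
        ring
      rw [map_mul, e2]
      have e6 : σ (c q) = c q := hσζ _
      rw [e6, e5, mul_assoc]
    rw [map_sum, Finset.mul_sum]
    rw [Finset.sum_congr rfl fun q _ => hterm q]
    exact (Equiv.sum_comp (MulAction.toPerm (⟨σ, hσ⟩ : ↥L.fixingSubgroup))
      (fun q => ζ ^ (χ σ).val * (c q * r q (θ : Qb))))

end Fermat.Agent.S55.H23.Kum
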