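/-
Program C (S55), package C9a, leaf K-SURJ (helper23), part 2: Shapiro injectivity in degree 1
for `F_L' = D p (baseRep p L)`, and the identification of a level-constant class with a Kummer
class.

* `exists_coboundary_of_vanish` : a 1-cocycle `δ : G_ℚ → F_L'` with `δ σ (x₀) = 0` for all
  `σ ∈ G_L` (`x₀` the identity coset) is a coboundary.
* `exists_kclass_eq` : for a 1-cocycle `c : G_ℚ → F_L'` which is constant on the cosets of `G_F`,
  and a finite Galois `E ⊇ L ⊔ F`, there is `α ∈ E`, `α ≠ 0`, with `α ^ p ∈ L`, such that the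
  class of `c` is the Kummer class of the function `x ↦ (out x) α`.
-/
import Mathlib
import Fermat.Prelude.Def_GroupCohomology_ContinuousUnramified
import Fermat.Agent.S55.H23.KummerMap
import Fermat.Agent.S55.H23.KummerSurjH90

set_option autoImplicit false

namespace Fermat.Agent.S55.H23.Kum

open ExtCitation groupCohomology Fermat.Agent.S55.H70

/-- `ℚ̄`. -/
local notation "Qb" => AlgebraicClosure ℚ

local instance isAlgebraicQbar_h23t : Algebra.IsAlgebraic ℚ (AlgebraicClosure ℚ) :=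
  AlgebraicClosure.isAlgebraic ℚ
local instance isAlgClosureQbar_h23t : IsAlgClosure ℚ (AlgebraicClosure ℚ) :=
  ⟨inferInstance, inferInstance⟩
local instance isGaloisQbar_h23t : IsGalois ℚ (AlgebraicClosure ℚ) :=
  IsAlgClosure.isGalois ℚ (AlgebraicClosure ℚ)

variable {p : ℕ} [Fact p.Prime] {L : IntermediateField ℚ Qb}

/-- The cyclotomic character is trivial on the elements fixing a primitive `p`-th root of unity. -/
theorem cycloChar_eq_one_of_fix {ζ : Qb} (hζ : IsPrimitiveRoot ζ p) (σ : GQ) (h : σ ζ = ζ) :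
    (cycloChar p σ : ZMod p) = 1 := by
  have h1 := dlog_map hζ σ hζ.pow_eq_one
  have h2 : dlog p ζ ζ = 1 := by
    have h3 := dlog_pow hζ 1
    rwa [pow_one, Nat.cast_one] at h3
  rw [h, h2, mul_one] at h1
  exact h1.symm

theorem dlog_pow_val {ζ : Qb} (hζ : IsPrimitiveRoot ζ p) (k : ZMod p) :
    dlog p ζ (ζ ^ k.val) = k := by
  have : NeZero p := ⟨(Fact.out : p.Prime).ne_zero⟩
  rw [dlog_pow hζ, ZMod.natCast_zmod_val]

/-- **Shapiro injectivity in degree 1**: a cocycle with values in `F_L'` whose restriction to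
`G_L`, evaluated at the identity coset, vanishes, is a coboundary. -/
theorem exists_coboundary_of_vanish
    (δ : GQ → Module.Dual (ZMod p) (MonoidAlgebra (ZMod p) (GQ ⧸ L.fixingSubgroup)))
    (hδ : ∀ g h : GQ, δ (g * h) = (D p (baseRep p L)).ρ g (δ h) + δ g)
    (h0 : ∀ σ ∈ L.fixingSubgroup,
      δ σ (MonoidAlgebra.single ((1 : GQ) : GQ ⧸ L.fixingSubgroup) 1) = 0) :
    ∃ φ : Module.Dual (ZMod p) (MonoidAlgebra (ZMod p) (GQ ⧸ L.fixingSubgroup)),
      ∀ g : GQ, δ g = (D p (baseRep p L)).ρ g φ - φ := by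
  set ψ : GQ → ZMod p := fun γ => δ γ (MonoidAlgebra.single (γ : GQ ⧸ L.fixingSubgroup) 1)
    with hψdef
  have hsmul : ∀ g γ : GQ, g⁻¹ • (γ : GQ ⧸ L.fixingSubgroup) =
      ((g⁻¹ * γ : GQ) : GQ ⧸ L.fixingSubgroup) := fun g γ => rfl
  have hψ : ∀ γ : GQ, ∀ h ∈ L.fixingSubgroup, ψ (γ * h) = ψ γ := by
    intro γ h hh
    have e1 : ((γ * h : GQ) : GQ ⧸ L.fixingSubgroup) = (γ : GQ ⧸ L.fixingSubgroup) :=
      QuotientGroup.mk_mul_of_mem γ hh
    show δ (γ * h) (MonoidAlgebra.single ((γ * h : GQ) : GQ ⧸ L.fixingSubgroup) 1) =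
      δ γ (MonoidAlgebra.single (γ : GQ ⧸ L.fixingSubgroup) 1)
    rw [e1, hδ, LinearMap.add_apply, rho_apply_single, hsmul, inv_mul_cancel, h0 h hh, mul_zero,
      zero_add]
  set φ : Module.Dual (ZMod p) (MonoidAlgebra (ZMod p) (GQ ⧸ L.fixingSubgroup)) :=
    fnl L fun x => -ψ (Quotient.out x) with hφdef
  have hφ : ∀ γ : GQ, φ (MonoidAlgebra.single (γ : GQ ⧸ L.fixingSubgroup) 1) = -ψ γ := by
    intro γ
    obtain ⟨h, hh⟩ := QuotientGroup.mk_out_eq_mul L.fixingSubgroup γ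
    rw [hφdef, fnl_single, one_mul]
    have e2 : Quotient.out (γ : GQ ⧸ L.fixingSubgroup) = γ * h := hh
    rw [e2, hψ γ h h.2]
  refine ⟨φ, fun g => ?_⟩
  apply dual_ext
  intro x
  induction x using QuotientGroup.induction_on with
  | H γ =>
    rw [LinearMap.sub_apply, rho_apply_single, hsmul, hφ, hφ]
    have e3 := congrArg (fun f : Module.Dual (ZMod p)
      (MonoidAlgebra (ZMod p) (GQ ⧸ L.fixingSubgroup)) =>
        f (MonoidAlgebra.single (γ : GQ ⧸ L.fixingSubgroup) 1)) (hδ g (g⁻¹ * γ))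
    simp only at e3
    rw [mul_inv_cancel_left, LinearMap.add_apply, rho_apply_single, hsmul] at e3
    have e4 : δ γ (MonoidAlgebra.single (γ : GQ ⧸ L.fixingSubgroup) 1) = ψ γ := rfl
    have e5 : δ (g⁻¹ * γ) (MonoidAlgebra.single ((g⁻¹ * γ : GQ) : GQ ⧸ L.fixingSubgroup) 1) =
        ψ (g⁻¹ * γ) := rfl
    rw [e4, e5] at e3
    linear_combination -e3

omit [Fact p.Prime] in
theorem conj_pow (a : Qb) (n : ℕ) (x : GQ ⧸ L.fixingSubgroup) :
    conj L (a ^ n) x = conj L a x ^ n := by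
  unfold conj
  rw [map_pow]

omit [Fact p.Prime] in
/-- The conjugates of an element whose `p`-th power lies in `L` form an admissible function. -/
theorem adm_conj {α : Qb} (hα0 : α ≠ 0) (hαL : α ^ p ∈ L) : Adm L p (conj L α) := by
  refine ⟨conj_ne_zero hα0, fun g x => ?_⟩
  rw [← map_pow, ← conj_pow, ← conj_pow, map_conj hαL]

/-- **Every cocycle that is constant on the cosets of an open subgroup is a Kummer cocycle up to
a coboundary.** -/
theorem exists_kclass_eq (hL : IsGalois ℚ L) {ζ : Qb} (hζ : IsPrimitiveRoot ζ p) (hζL : ζ ∈ L)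
    (E : IntermediateField ℚ Qb) (hLE : L ≤ E) [FiniteDimensional ℚ E] (hE : IsGalois ℚ E)
    (c : cocycles₁ (D p (baseRep p L)))
    (hc : ∀ g s : GQ, s ∈ E.fixingSubgroup → (c : GQ → D p (baseRep p L)) (g * s) = c g) :
    ∃ (α : Qb) (hα0 : α ≠ 0) (hαL : α ^ p ∈ L), α ∈ E ∧
      (H1π (D p (baseRep p L))).hom c = kclass hζ (adm_conj hα0 hαL) := by
  have hp : p ≠ 0 := (Fact.out : p.Prime).ne_zero
  have hζ0 : ζ ≠ 0 := hζ.ne_zero hp
  set x₀ : GQ ⧸ L.fixingSubgroup := ((1 : GQ) : GQ ⧸ L.fixingSubgroup) with hx₀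
  have hcoc : ∀ g h : GQ, (c : GQ → D p (baseRep p L)) (g * h) =
      (D p (baseRep p L)).ρ g (c h) + c g := (mem_cocycles₁_iff _).1 c.2
  have hfixζ : ∀ σ ∈ L.fixingSubgroup, σ ζ = ζ := fun σ hσ =>
    (IntermediateField.mem_fixingSubgroup_iff L σ).1 hσ ζ hζL
  -- the character
  set χ : GQ → ZMod p := fun σ =>
    ((c : GQ → D p (baseRep p L)) σ :
      Module.Dual (ZMod p) (MonoidAlgebra (ZMod p) (GQ ⧸ L.fixingSubgroup)))
      (MonoidAlgebra.single x₀ 1) with hχdef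
  have hadd : ∀ σ ∈ L.fixingSubgroup, ∀ τ ∈ L.fixingSubgroup, χ (σ * τ) = χ σ + χ τ := by
    intro σ hσ τ _
    have e1 := congrArg (fun f : Module.Dual (ZMod p)
      (MonoidAlgebra (ZMod p) (GQ ⧸ L.fixingSubgroup)) => f (MonoidAlgebra.single x₀ 1))
      (hcoc σ τ)
    simp only at e1
    rw [LinearMap.add_apply, rho_apply_single,
      Fermat.Agent.S55.H87.smul_coset_eq L hL (L.fixingSubgroup.inv_mem hσ),
      cycloChar_eq_one_of_fix hζ σ (hfixζ σ hσ), one_mul, add_comm] at e1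
    exact e1
  have hK : ∀ σ ∈ L.fixingSubgroup, ∀ s ∈ E.fixingSubgroup, χ (σ * s) = χ σ := by
    intro σ _ s hs
    show ((c : GQ → D p (baseRep p L)) (σ * s) :
      Module.Dual (ZMod p) (MonoidAlgebra (ZMod p) (GQ ⧸ L.fixingSubgroup))) _ = _
    rw [hc σ s hs]
  obtain ⟨α, hαE, hα0, hα⟩ := exists_resolvent hζ.pow_eq_one L E hLE hE hζL χ hadd hK
  have hαL : α ^ p ∈ L := by
    rw [← InfiniteGalois.fixedField_fixingSubgroup L, IntermediateField.mem_fixedField_iff]
    intro σ hσ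
    rw [map_pow, hα σ hσ, mul_pow, ← pow_mul, mul_comm _ p, pow_mul, hζ.pow_eq_one, one_pow,
      one_mul]
  refine ⟨α, hα0, hαL, hαE, ?_⟩
  have hβ : Adm L p (conj L α) := adm_conj hα0 hαL
  -- the difference cocycle vanishes on `G_L` at the identity coset
  obtain ⟨φ, hφ⟩ := exists_coboundary_of_vanish (L := L)
    (fun g => ((c : GQ → D p (baseRep p L)) g :
      Module.Dual (ZMod p) (MonoidAlgebra (ZMod p) (GQ ⧸ L.fixingSubgroup))) - kcoc L ζ (conj L α) g)
    (fun g h => by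
      simp only
      rw [hcoc g h, kcoc_mul hζ hβ g h, map_sub]
      abel)
    (fun σ hσ => by
      simp only
      rw [LinearMap.sub_apply, kcoc_single, sub_eq_zero,
        Fermat.Agent.S55.H87.smul_coset_eq L hL (L.fixingSubgroup.inv_mem hσ)]
      obtain ⟨h, hh⟩ := QuotientGroup.mk_out_eq_mul L.fixingSubgroup (1 : GQ)
      have e1 : conj L α ((1 : GQ) : GQ ⧸ L.fixingSubgroup) = ζ ^ (χ h).val * α := by
        unfold conj
        rw [show Quotient.out ((1 : GQ) : GQ ⧸ L.fixingSubgroup) = 1 * h from hh, one_mul]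
        exact hα h h.2
      have e2 : σ (conj L α ((1 : GQ) : GQ ⧸ L.fixingSubgroup)) /
          conj L α ((1 : GQ) : GQ ⧸ L.fixingSubgroup) = ζ ^ (χ σ).val := by
        rw [e1, map_mul, map_pow, hfixζ σ hσ, hα σ hσ]
        have h1 : ζ ^ (χ h).val ≠ 0 := pow_ne_zero _ hζ0
        field_simp
      rw [e2, dlog_pow_val hζ])
  symm
  rw [kclass, ← sub_eq_zero, ← map_sub]
  refine (H1π_eq_zero_iff _).2 ⟨-φ, funext fun g => ?_⟩
  have h1 := hφ g
  simp only at h1
  show (D p (baseRep p L)).ρ g (-φ) - (-φ) = kcoc L ζ (conj L α) g - (c : GQ → D p (baseRep p L)) g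
  rw [map_neg]
  rw [sub_eq_iff_eq_add] at h1
  rw [h1]
  abel

end Fermat.Agent.S55.H23.Kum
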