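/-
Program C (S55), package C9a, leaf K-SURJ (helper23), part 3: a nonzero element of a level field
`L ∋ ζ_p` which is a `p`-th power in a field `E ⊇ L` unramified outside `S` lies in
`V_S(L) = H87.pDivGroup L (H87.placesOver L S) p` (its valuations at the primes of `L` outside `S`
are divisible by `p`).  Uses the landed S14 package A3 (`cnt_dvd_of_inertia_fixes`).
-/
import Mathlib
import Fermat.Prelude.Def_GroupCohomology_ContinuousUnramified
import Fermat.Agent.S14.H34.A3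
import Fermat.Agent.S55.H83.ClassNumber
import Fermat.Agent.S55.H87.CountDefs
import Fermat.Agent.S55.H23.KummerDict

set_option autoImplicit false

namespace Fermat.Agent.S55.H23.Kum

open IsDedekindDomain HeightOneSpectrum NumberField ExtCitation Fermat.Agent.S55

/-- `ℚ̄`. -/
local notation "Qb" => AlgebraicClosure ℚ

/-- A prime ideal containing a nonzero natural number contains a prime number. -/
theorem exists_prime_natCast_mem {R : Type*} [CommRing R] (P : Ideal R) [hP : P.IsPrime] :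
    ∀ n : ℕ, n ≠ 0 → (n : R) ∈ P → ∃ ℓ : ℕ, ℓ.Prime ∧ (ℓ : R) ∈ P := by
  intro n
  induction n using Nat.strong_induction_on with
  | _ n ih =>
    intro hn0 hn
    have hn1 : n ≠ 1 := by
      rintro rfl
      rw [Nat.cast_one] at hn
      exact hP.ne_top ((Ideal.eq_top_iff_one _).2 hn)
    have hpr := Nat.minFac_prime hn1
    obtain ⟨m, hm⟩ := Nat.minFac_dvd n
    have hm0 : m ≠ 0 := by
      rintro rfl
      rw [mul_zero] at hm
      exact hn0 hm
    have hmem : ((n.minFac : ℕ) : R) * (m : R) ∈ P := by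
      rw [← Nat.cast_mul, ← hm]
      exact hn
    rcases hP.mem_or_mem hmem with h | h
    · exact ⟨_, hpr, h⟩
    · refine ih m ?_ hm0 h
      calc m < n.minFac * m := lt_mul_of_one_lt_left (Nat.pos_of_ne_zero hm0) hpr.one_lt
        _ = n := hm.symm

variable (L : IntermediateField ℚ Qb) [NumberField L]

/-- Every prime of `𝓞 L` contains a rational prime. -/
theorem exists_prime_mem_place (w : HeightOneSpectrum (𝓞 L)) :
    ∃ ℓ : ℕ, ℓ.Prime ∧ (ℓ : 𝓞 L) ∈ w.asIdeal := by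
  have hw : w.asIdeal.IsPrime := w.isPrime
  refine exists_prime_natCast_mem w.asIdeal (Ideal.absNorm w.asIdeal) ?_ (Ideal.absNorm_mem _)
  rw [Ne, Ideal.absNorm_eq_zero_iff]
  exact w.ne_bot

variable {L}

/-- `ordv` of a nonzero integer is minus the multiplicity of the prime in its principal ideal. -/
theorem ordv_mk0_integer (w : HeightOneSpectrum (𝓞 L)) (r : 𝓞 L) (hr : r ≠ 0)
    (hr' : (r : L) ≠ 0) :
    H83.ordv L w (Units.mk0 (r : L) hr') = -(Fermat.Agent.S14.H70.cnt w r : ℤ) := by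
  apply H83.ordv_eq_of_valuation_eq
  rw [Units.val_mk0]
  have h1 : w.valuation L ((r : 𝓞 L) : L) = w.intValuation r := w.valuation_of_algebraMap r
  rw [h1, w.intValuation_if_neg hr]
  rfl

/-- **(UNR)** `p`-th powers in a field unramified outside `S` have valuations divisible by `p`
outside `S`. -/
theorem mem_pDivGroup_of_unramified {p : ℕ} [Fact p.Prime] {S : Finset Nat.Primes} {ζ : Qb}
    (hζ : IsPrimitiveRoot ζ p) (hζL : ζ ∈ L) (E : IntermediateField ℚ Qb) (hLE : L ≤ E)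
    (hE : E.IsUnramifiedOutside S) (α : Qb) (hαE : α ∈ E) (u : (↥L)ˣ)
    (hu : ((u : ↥L) : Qb) = α ^ p) : u ∈ H87.pDivGroup L (H87.placesOver L S) p := by
  have hp : p.Prime := Fact.out
  rw [H87.mem_pDivGroup]
  intro w hw
  obtain ⟨ℓ, hℓ, hℓw⟩ := exists_prime_mem_place L w
  have hℓS : (⟨ℓ, hℓ⟩ : Nat.Primes) ∉ S := fun h =>
    hw ((H87.mem_placesOver L S w).2 ⟨⟨ℓ, hℓ⟩, h, by simpa using hℓw⟩)
  obtain ⟨n, d, hd, hnd⟩ := IsFractionRing.div_surjective (A := 𝓞 L) (u : ↥L)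
  have hd0 : d ≠ 0 := nonZeroDivisors.ne_zero hd
  have hdL0 : ((d : 𝓞 L) : ↥L) ≠ 0 := by
    intro h
    exact hd0 (RingOfIntegers.coe_injective (by simpa using h))
  have hnL : ((n : 𝓞 L) : ↥L) = (u : ↥L) * ((d : 𝓞 L) : ↥L) := by
    rw [← hnd]
    exact (div_mul_cancel₀ _ hdL0).symm
  set r : 𝓞 L := n * d ^ (p - 1) with hrdef
  have hrL : ((r : 𝓞 L) : ↥L) = (u : ↥L) * ((d : 𝓞 L) : ↥L) ^ p := by
    have h1 : ((r : 𝓞 L) : ↥L) = ((n : 𝓞 L) : ↥L) * ((d : 𝓞 L) : ↥L) ^ (p - 1) := by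
      rw [hrdef]
      exact (map_mul (algebraMap (𝓞 L) L) n (d ^ (p - 1))).trans
        (congrArg _ (map_pow (algebraMap (𝓞 L) L) d (p - 1)))
    rw [h1, hnL, mul_assoc, ← pow_succ', Nat.sub_add_cancel hp.one_le]
  have hrL0 : ((r : 𝓞 L) : ↥L) ≠ 0 := by
    rw [hrL]
    exact mul_ne_zero u.ne_zero (pow_ne_zero _ hdL0)
  have hr0 : r ≠ 0 := by
    rintro h
    apply hrL0
    rw [h]
    exact map_zero _
  set θ : Qb := α * ((((d : 𝓞 L) : ↥L)) : Qb) with hθdef
  have hθ : θ ^ p = ((((r : 𝓞 L) : ↥L)) : Qb) := by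
    rw [hθdef, mul_pow, ← hu, hrL]
    push_cast
    ring
  have hI : ∀ A : ValuationSubring Qb, A.LiesOverPrime ℓ → ∀ σ ∈ A.inertiaSubgroupIn ℚ,
      σ θ = θ := by
    intro A hA σ hσ
    have h1 : σ ∈ E.fixingSubgroup := hE.2 ⟨ℓ, hℓ⟩ hℓS A hA hσ
    exact (IntermediateField.mem_fixingSubgroup_iff E σ).1 h1 θ
      (E.mul_mem hαE (hLE ((d : 𝓞 L) : ↥L).2))
  have hdvd : p ∣ Fermat.Agent.S14.H70.cnt w r :=
    Fermat.Agent.S14.H34.cnt_dvd_of_inertia_fixes L ζ hζ hζL θ r hr0 hθ ℓ hℓ hI w hℓw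
  have e1 : Units.mk0 ((r : 𝓞 L) : ↥L) hrL0 = u * (Units.mk0 ((d : 𝓞 L) : ↥L) hdL0) ^ p := by
    apply Units.ext
    rw [Units.val_mk0, Units.val_mul, Units.val_pow_eq_pow_val, Units.val_mk0, hrL]
  have e2 := ordv_mk0_integer w r hr0 hrL0
  rw [e1, H83.ordv_mul, ordv_pow] at e2
  have e3 : H83.ordv L w u = -(Fermat.Agent.S14.H70.cnt w r : ℤ) -
      (p : ℤ) * H83.ordv L w (Units.mk0 ((d : 𝓞 L) : ↥L) hdL0) := by
    linarith
  rw [e3]
  exact dvd_sub ((dvd_neg).2 (Int.natCast_dvd_natCast.2 hdvd)) (dvd_mul_right _ _)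

end Fermat.Agent.S55.H23.Kum
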