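/-
Program C (S55), package C9a, leaf K-SURJ (helper23): THE KUMMER ISOMORPHISM
`V_S(L) / Lˣᵖ ≃ H¹(G_S, F_L')` in module form.

For a level field `L` (Galois over `ℚ`, unramified outside `S`, containing `μ_p`), `p ∈ S`, and a
primitive `p`-th root of unity `ζ`:

* `Kum.kummerHom hpS hL hζ : Additive ↥V_S(L) →+ ↥(continuousH1S S (D p (baseRep p L)))`,
  `a ↦` the class of the Kummer cocycle `kcoc L ζ (root p L a)`   (`kummerHom_coe`);
* `Kum.kummerHom_ker` : its kernel consists of `p`-th powers;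
* `Kum.kummerHom_surjective` : it is surjective.

Here `V_S(L) = H87.pDivGroup L (H87.placesOver L S) p`.
-/
import Mathlib
import Fermat.Prelude.Def_GroupCohomology_ContinuousUnramified
import Fermat.Agent.S55.H43.Levels
import Fermat.Agent.S55.H87.CountDefs
import Fermat.Agent.S55.H23.KummerMap
import Fermat.Agent.S55.H23.KummerDict
import Fermat.Agent.S55.H23.KummerSurjShapiro
import Fermat.Agent.S55.H23.KummerSurjUnr

set_option autoImplicit false

namespace Fermat.Agent.S55.H23.Kum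

open ExtCitation groupCohomology Fermat.Agent.S55.H70 Fermat.Agent.S55

/-- `ℚ̄`. -/
local notation "Qb" => AlgebraicClosure ℚ

variable {p : ℕ} [Fact p.Prime] {S : Finset Nat.Primes} {L : IntermediateField ℚ Qb}

/-- **Surjectivity, element form**: every level-`S`-constant class of `H¹(G_ℚ, F_L')` is the
Kummer class of an element of `V_S(L)`. -/
theorem exists_kum_eq (hL : IsLevelField p S L) [NumberField L] {ζ : Qb}
    (hζ : IsPrimitiveRoot ζ p) (x : H1 (D p (baseRep p L)))
    (hx : x ∈ continuousH1S S (D p (baseRep p L))) :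
    ∃ u : (↥L)ˣ, u ∈ H87.pDivGroup L (H87.placesOver L S) p ∧ kum hζ u = x := by
  obtain ⟨hLur, hLgal, hμ⟩ := hL
  have hζL : ζ ∈ L := hμ ζ hζ.pow_eq_one
  obtain ⟨c, ⟨F, hF, hcF⟩, rfl⟩ := (mem_continuousH1S_iff S _ x).1 hx
  obtain ⟨E, hE, hLFE, -, hEgal⟩ := Fermat.Agent.S55.H43.exists_normal_level (hLur.sup hF)
  have hLE : L ≤ E := le_trans le_sup_left hLFE
  have hFE : F ≤ E := le_trans le_sup_right hLFE
  have hfdE : FiniteDimensional ℚ E := hE.1
  obtain ⟨α, hα0, hαL, hαE, hcls⟩ := exists_kclass_eq hLgal hζ hζL E hLE hEgal c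
    (fun g s hs => hcF g s (IntermediateField.fixingSubgroup_antitone hFE hs))
  have hu0 : (⟨α ^ p, hαL⟩ : ↥L) ≠ 0 := by
    intro h
    exact pow_ne_zero p hα0 (congrArg Subtype.val h)
  refine ⟨Units.mk0 ⟨α ^ p, hαL⟩ hu0, ?_, ?_⟩
  · exact mem_pDivGroup_of_unramified hζ hζL E hLE hE α hαE _ rfl
  · rw [hcls]
    unfold kum
    apply kclass_eq_of_pow_eq
    intro y
    rw [root_pow, ← conj_pow]
    rfl

/-- **The Kummer homomorphism** `V_S(L) → H¹(G_S, F_L')`. -/
noncomputable def kummerHom (hpS : pPrime p ∈ S) (hL : IsLevelField p S L) [NumberField L]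
    {ζ : Qb} (hζ : IsPrimitiveRoot ζ p) :
    Additive ↥(H87.pDivGroup L (H87.placesOver L S) p) →+
      ↥(continuousH1S S (D p (baseRep p L))) :=
  AddMonoidHom.mk' (fun a =>
      ⟨kum hζ ((Additive.toMul a : ↥(H87.pDivGroup L (H87.placesOver L S) p)) : (↥L)ˣ),
        kum_mem_continuousH1S hpS hL.1 hL.2.1 hζ _
          (goodOutside_of_mem_pDivGroup S _ (Additive.toMul a).2)⟩)
      (fun _ _ => Subtype.ext (kum_mul hζ _ _))

/-- The underlying class is the class of the explicit Kummer cocycle `kcoc L ζ (root p L a)`. -/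
theorem kummerHom_coe (hpS : pPrime p ∈ S) (hL : IsLevelField p S L) [NumberField L]
    {ζ : Qb} (hζ : IsPrimitiveRoot ζ p)
    (a : Additive ↥(H87.pDivGroup L (H87.placesOver L S) p)) :
    ((kummerHom hpS hL hζ a : ↥(continuousH1S S (D p (baseRep p L)))) :
        H1 (D p (baseRep p L))) =
      kum hζ ((Additive.toMul a : ↥(H87.pDivGroup L (H87.placesOver L S) p)) : (↥L)ˣ) :=
  rfl

/-- **The kernel of the Kummer homomorphism consists of `p`-th powers.** -/
theorem kummerHom_ker (hpS : pPrime p ∈ S) (hL : IsLevelField p S L) [NumberField L]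
    {ζ : Qb} (hζ : IsPrimitiveRoot ζ p)
    (a : Additive ↥(H87.pDivGroup L (H87.placesOver L S) p))
    (ha : kummerHom hpS hL hζ a = 0) :
    ((Additive.toMul a : ↥(H87.pDivGroup L (H87.placesOver L S) p)) : (↥L)ˣ) ∈
      H87.powGroup L p := by
  have hp : p.Prime := Fact.out
  have h0 : kum hζ
      ((Additive.toMul a : ↥(H87.pDivGroup L (H87.placesOver L S) p)) : (↥L)ˣ) = 0 :=
    congrArg Subtype.val ha
  obtain ⟨b, hb⟩ := exists_pow_eq_of_kum_eq_zero hL.2.1 hζ _ h0
  have hb0 : b ≠ 0 := by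
    rintro rfl
    rw [zero_pow hp.ne_zero] at hb
    exact (Units.ne_zero _) hb.symm
  rw [H87.mem_powGroup]
  exact ⟨Units.mk0 b hb0, Units.ext (by rw [Units.val_pow_eq_pow_val, Units.val_mk0, hb])⟩

/-- `p`-th powers are in the kernel. -/
theorem kummerHom_eq_zero_of_mem_powGroup (hpS : pPrime p ∈ S) (hL : IsLevelField p S L)
    [NumberField L] {ζ : Qb} (hζ : IsPrimitiveRoot ζ p)
    (a : Additive ↥(H87.pDivGroup L (H87.placesOver L S) p))
    (ha : ((Additive.toMul a : ↥(H87.pDivGroup L (H87.placesOver L S) p)) : (↥L)ˣ) ∈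
      H87.powGroup L p) : kummerHom hpS hL hζ a = 0 := by
  have hp : p.Prime := Fact.out
  rw [H87.mem_powGroup] at ha
  obtain ⟨b, hb⟩ := ha
  apply Subtype.ext
  rw [kummerHom_coe, ← hb]
  show kumHom hζ (Additive.ofMul (b ^ p)) = 0
  rw [ofMul_pow, map_nsmul]
  have h1 : (p : ZMod p) = 0 := ZMod.natCast_self p
  rw [← Nat.cast_smul_eq_nsmul (ZMod p), h1, zero_smul]

/-- **The Kummer homomorphism is surjective.** -/
theorem kummerHom_surjective (hpS : pPrime p ∈ S) (hL : IsLevelField p S L) [NumberField L]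
    {ζ : Qb} (hζ : IsPrimitiveRoot ζ p) : Function.Surjective (kummerHom hpS hL hζ) := by
  intro x
  obtain ⟨u, hu, hux⟩ := exists_kum_eq hL hζ (x : H1 (D p (baseRep p L))) x.2
  exact ⟨Additive.ofMul ⟨u, hu⟩, Subtype.ext hux⟩

end Fermat.Agent.S55.H23.Kum
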