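/-
S55 (Poitou–Tate), package C6 (first inequality), helper23.

Two polynomial identities in `ℤ[X]` for a prime `p`, with `Φ = 1 + X + ⋯ + X^(p-1)`:

* `(X - 1)^(p-1) = p · a + Φ · c`,
* `p = (X - 1)^(p-1) · b + Φ · c'`,

i.e. the ideals `(p)` and `((X-1)^(p-1))` coincide modulo `Φ`.  The proof is elementary
(no cyclotomic fields, no irreducibility of `Φ`): `Φ = p + (X - 1) q₁`,
`q₁ ≡ (X - 1)^(p-2)` modulo `p`, and a geometric series.
-/
import Mathlib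

set_option autoImplicit false

namespace Fermat.Agent.S55.H23

open Polynomial Finset

/-- a polynomial over `ℤ` that vanishes modulo `p` is divisible by `p`. -/
theorem C_dvd_of_map_zmod_eq_zero (p : ℕ) (f : ℤ[X])
    (h : f.map (Int.castRingHom (ZMod p)) = 0) : C (p : ℤ) ∣ f := by
  rw [Polynomial.C_dvd_iff_dvd_coeff]
  intro i
  have h1 : (f.map (Int.castRingHom (ZMod p))).coeff i = 0 := by rw [h, coeff_zero]
  rw [coeff_map] at h1
  exact (ZMod.intCast_zmod_eq_zero_iff_dvd _ p).1 h1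

/-- `Φ = p + (X - 1) q₁` and `q₁ = (X - 1)^m + p g₁`, for the prime `p = m + 2`. -/
theorem exists_geom_decomp (m : ℕ) [Fact (m + 2).Prime] :
    ∃ q₁ g₁ : ℤ[X],
      (∑ i ∈ range (m + 2), (X : ℤ[X]) ^ i) = C ((m + 2 : ℕ) : ℤ) + (X - 1) * q₁ ∧
      q₁ = (X - 1) ^ m + C ((m + 2 : ℕ) : ℤ) * g₁ := by
  set p := m + 2 with hp
  set Φ : ℤ[X] := ∑ i ∈ range p, (X : ℤ[X]) ^ i with hΦ
  have hev : Φ.eval 1 = (p : ℤ) := by
    simp [hΦ, eval_finsetSum]
  obtain ⟨q₁, hq₁⟩ := X_sub_C_dvd_sub_C_eval (a := (1 : ℤ)) (p := Φ)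
  rw [hev, C_1] at hq₁
  have h1 : Φ = C (p : ℤ) + (X - 1) * q₁ := by linear_combination hq₁
  refine ⟨q₁, ?_⟩
  -- reduce modulo `p`
  set f := Int.castRingHom (ZMod p) with hf
  have hgeom : Φ * (X - 1) = X ^ p - 1 := geom_sum_mul X p
  have hgeom' : Φ.map f * (X - 1) = X ^ p - 1 := by
    have := congrArg (Polynomial.map f) hgeom
    simpa using this
  have h1' : Φ.map f = (X - 1) * q₁.map f := by
    have := congrArg (Polynomial.map f) h1
    simpa [hf] using this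
  have hfrob : (X - 1 : (ZMod p)[X]) ^ p = X ^ p - 1 := by
    rw [sub_pow_char, one_pow]
  have hne : (X - 1 : (ZMod p)[X]) ≠ 0 := by
    have := X_sub_C_ne_zero (1 : ZMod p)
    simpa using this
  have hq : q₁.map f = (X - 1) ^ m := by
    have e : (X - 1 : (ZMod p)[X]) ^ 2 * q₁.map f = (X - 1) ^ 2 * (X - 1) ^ m := by
      calc (X - 1 : (ZMod p)[X]) ^ 2 * q₁.map f = ((X - 1) * q₁.map f) * (X - 1) := by ring
        _ = X ^ p - 1 := by rw [← h1', hgeom']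
        _ = (X - 1) ^ p := hfrob.symm
        _ = (X - 1) ^ 2 * (X - 1) ^ m := by
            rw [← pow_add]; exact congrArg _ (by omega)
    exact mul_left_cancel₀ (pow_ne_zero 2 hne) e
  have hz : (q₁ - (X - 1) ^ m).map f = 0 := by
    rw [Polynomial.map_sub, hq]
    simp
  obtain ⟨g₁, hg₁⟩ := C_dvd_of_map_zmod_eq_zero p _ hz
  exact ⟨g₁, h1, by linear_combination hg₁⟩

/-- **The two identities**: modulo `Φ = ∑_{i<p} X^i`, the ideals `(p)` and `((X-1)^(p-1))` of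
`ℤ[X]` coincide. -/
theorem exists_poly_identities (p : ℕ) [hp : Fact p.Prime] :
    ∃ a b c c' : ℤ[X],
      (X - 1 : ℤ[X]) ^ (p - 1) = C (p : ℤ) * a + (∑ i ∈ range p, X ^ i) * c ∧
      C (p : ℤ) = (X - 1 : ℤ[X]) ^ (p - 1) * b + (∑ i ∈ range p, X ^ i) * c' := by
  obtain ⟨m, rfl⟩ : ∃ m, p = m + 2 := ⟨p - 2, by have := hp.out.two_le; omega⟩
  obtain ⟨q₁, g₁, h1, h2⟩ := exists_geom_decomp m
  set Φ : ℤ[X] := ∑ i ∈ range (m + 2), (X : ℤ[X]) ^ i with hΦ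
  set P : ℤ[X] := C ((m + 2 : ℕ) : ℤ) with hP
  have hsub : m + 2 - 1 = m + 1 := rfl
  rw [hsub]
  set e : ℤ[X] := -((X - 1) * g₁) with he
  set v : ℤ[X] := ∑ j ∈ range (m + 1), e ^ j with hv
  have hgeo : (1 - e) * v = 1 - e ^ (m + 1) := mul_neg_geom_sum e (m + 1)
  have hepow : e ^ (m + 1) = (X - 1) ^ (m + 1) * (-g₁) ^ (m + 1) := by
    rw [he, ← mul_pow]; congr 1; ring
  have hX : (X - 1 : ℤ[X]) ^ (m + 1) = (X - 1) * (X - 1) ^ m := by ring
  -- `P * (1 - e) = Φ - (X - 1)^(m+1)`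
  have hE : P * (1 - e) = Φ - (X - 1) ^ (m + 1) := by
    rw [hX, he, h1, h2]; ring
  refine ⟨-1 - (X - 1) * g₁, -v + P * (-g₁) ^ (m + 1), 1, v, ?_, ?_⟩
  · rw [hX, h1, h2]; ring
  · have : P = P * ((1 - e) * v + e ^ (m + 1)) := by rw [hgeo]; ring
    calc P = P * ((1 - e) * v + e ^ (m + 1)) := this
      _ = (P * (1 - e)) * v + P * e ^ (m + 1) := by ring
      _ = (Φ - (X - 1) ^ (m + 1)) * v + P * ((X - 1) ^ (m + 1) * (-g₁) ^ (m + 1)) := by
          rw [hE, hepow]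
      _ = _ := by ring

end Fermat.Agent.S55.H23
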