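/-
S55 (Poitou–Tate), package C6 (first inequality), helper23.

Lemma (KL): a finitely generated torsion-free abelian group `K` with an endomorphism `t` such that
`1 + t + ⋯ + t^(p-1) = 0` (`p` prime) satisfies `[K : (t - 1) K]^(p-1) = p^(rank K)`, and `t - 1`
is injective.  (`K` is a torsion-free module over `ℤ[ζ_p]`, and `(ζ_p - 1)^(p-1) = p · unit`; the
proof only uses the two polynomial identities of `RankHerbrandPoly.lean`.)
-/
import Mathlib
import Fermat.Agent.S55.H23.RankHerbrandPoly

set_option autoImplicit false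

namespace Fermat.Agent.S55.H23

open Polynomial Finset Module

section KL

variable {K : Type*} [AddCommGroup K]

theorem end_mul_apply (f g : AddMonoid.End K) (x : K) : (f * g) x = f (g x) := rfl

theorem end_sub_apply (f g : AddMonoid.End K) (x : K) : (f - g) x = f x - g x := rfl

theorem end_one_apply (x : K) : (1 : AddMonoid.End K) x = x := rfl

theorem end_sum_apply {ι : Type*} (s : Finset ι) (f : ι → AddMonoid.End K) (x : K) :
    (∑ i ∈ s, f i) x = ∑ i ∈ s, f i x := by
  classical
  induction s using Finset.induction_on with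
  | empty => simp
  | insert a s ha ih =>
    rw [Finset.sum_insert ha, Finset.sum_insert ha, ← ih]; rfl

/-- if `t x = x` then `t ^ i x = x`. -/
theorem end_pow_apply_of_fixed (t : AddMonoid.End K) {x : K} (hx : t x = x) (i : ℕ) :
    (t ^ i) x = x := by
  induction i with
  | zero => rfl
  | succ i ih => rw [pow_succ, end_mul_apply, hx, ih]

/-- if `t x = x` then `(∑_{i<p} t^i) x = p • x`. -/
theorem end_geom_apply_of_fixed (t : AddMonoid.End K) {x : K} (hx : t x = x) (p : ℕ) :
    (∑ i ∈ range p, t ^ i) x = p • x := by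
  rw [end_sum_apply]
  simp [end_pow_apply_of_fixed t hx]

variable [Module.IsTorsionFree ℤ K]

/-- `t - 1` is injective when `∑_{i<p} t^i = 0` on a torsion-free group. -/
theorem injective_sub_one_of_geom_eq_zero (p : ℕ) (hp0 : p ≠ 0) (t : AddMonoid.End K)
    (ht : ∑ i ∈ range p, t ^ i = 0) : Function.Injective (t - 1 : AddMonoid.End K) := by
  have key : ∀ x : K, (t - 1 : AddMonoid.End K) x = 0 → x = 0 := by
    intro x hx
    have hx' : t x = x := by
      rw [end_sub_apply, end_one_apply] at hx
      exact sub_eq_zero.1 hx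
    have h1 := end_geom_apply_of_fixed t hx' p
    rw [ht] at h1
    have h2 : p • x = 0 := h1.symm
    have hinj := AddSubgroup.nsmulAddMonoidHom_injective_of_isTorsionFree (M := K) hp0
    apply hinj
    simpa using h2
  intro x y hxy
  have := key (x - y) (by
    have e : (t - 1 : AddMonoid.End K) (x - y)
        = (t - 1 : AddMonoid.End K) x - (t - 1 : AddMonoid.End K) y := map_sub _ _ _
    rw [e, hxy, sub_self])
  exact sub_eq_zero.1 this

omit [Module.IsTorsionFree ℤ K] in
/-- index of the range of a power of an injective endomorphism. -/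
theorem index_range_pow_of_injective (d : AddMonoid.End K) (hd : Function.Injective d) (j : ℕ) :
    (AddMonoidHom.range (d ^ j : AddMonoid.End K)).index = (AddMonoidHom.range d).index ^ j := by
  induction j with
  | zero =>
    have : AddMonoidHom.range (d ^ 0 : AddMonoid.End K) = ⊤ := by
      rw [pow_zero]
      exact AddMonoidHom.range_eq_top.2 fun x => ⟨x, rfl⟩
    rw [this, AddSubgroup.index_top, pow_zero]
  | succ j ih =>
    have hmap : (AddMonoidHom.range (d ^ j : AddMonoid.End K)).map d
        = AddMonoidHom.range (d ^ (j + 1) : AddMonoid.End K) := by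
      ext x
      constructor
      · rintro ⟨y, ⟨z, rfl⟩, rfl⟩
        exact ⟨z, by rw [pow_succ']; rfl⟩
      · rintro ⟨z, rfl⟩
        exact ⟨(d ^ j) z, ⟨z, rfl⟩, by rw [pow_succ']; rfl⟩
    have hker : AddMonoidHom.ker d = ⊥ := (AddMonoidHom.ker_eq_bot_iff d).2 hd
    have h := AddSubgroup.index_map (AddMonoidHom.range (d ^ j : AddMonoid.End K)) d
    rw [hmap, hker, sup_bot_eq, ih] at h
    rw [h, pow_succ]

/-- **Lemma (KL)**. -/
theorem index_range_sub_one_pow [Module.Finite ℤ K] (p : ℕ) [hp : Fact p.Prime] (t : AddMonoid.End K)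
    (ht : ∑ i ∈ range p, t ^ i = 0) :
    (AddMonoidHom.range (t - 1 : AddMonoid.End K)).index ^ (p - 1) = p ^ finrank ℤ K := by
  have hinj := injective_sub_one_of_geom_eq_zero p hp.out.ne_zero t ht
  rw [← index_range_pow_of_injective _ hinj, ← AddSubgroup.index_range_nsmul K p]
  congr 1
  obtain ⟨a, b, c, c', h1, h2⟩ := exists_poly_identities p
  have hX : aeval t (X - 1 : ℤ[X]) = t - 1 := by simp
  have hΦ : aeval t (∑ i ∈ range p, (X : ℤ[X]) ^ i) = 0 := by
    rw [map_sum]; simpa using ht
  have hC : aeval t (C (p : ℤ) : ℤ[X]) = (p : AddMonoid.End K) := by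
    rw [aeval_C]; simp
  have e1 : (t - 1 : AddMonoid.End K) ^ (p - 1) = (p : AddMonoid.End K) * aeval t a := by
    have := congrArg (aeval t) h1
    rw [map_pow, hX, map_add, map_mul, map_mul, hΦ, hC, zero_mul, add_zero] at this
    exact this
  have e2 : (p : AddMonoid.End K) = (t - 1 : AddMonoid.End K) ^ (p - 1) * aeval t b := by
    have := congrArg (aeval t) h2
    rw [map_add, map_mul, map_mul, map_pow, hX, hΦ, hC, zero_mul, add_zero] at this
    exact this
  ext x
  constructor
  · rintro ⟨y, rfl⟩
    refine ⟨(aeval t a) y, ?_⟩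
    rw [e1]
    rfl
  · rintro ⟨y, rfl⟩
    refine ⟨(aeval t b) y, ?_⟩
    have : (p : AddMonoid.End K) y = ((t - 1 : AddMonoid.End K) ^ (p - 1)) ((aeval t b) y) := by
      conv_lhs => rw [e2]
      rfl
    exact this.symm

end KL

end Fermat.Agent.S55.H23
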