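/-
S55 (Poitou–Tate), package C6 (first inequality), helper23.

The Herbrand quotient of a finitely generated TORSION-FREE abelian group `B` with an endomorphism
`s`, `s ^ p = 1` (`p` prime), in terms of ranks:  with `D = s - 1`, `N = ∑_{i<p} s^i`,
`h₀ = [ker D : im N]`, `h₁ = [ker N : im D]` (helper84's `hIdx`),

  `h₀ ≠ 0`, `h₁ ≠ 0`, `h₀^(p-1) · p^(rank B) = h₁^(p-1) · p^(p · rank (N B))`.
-/
import Mathlib
import Fermat.Agent.S55.H84.Herbrand
import Fermat.Agent.S55.H23.RankHerbrandKL

set_option autoImplicit false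

namespace Fermat.Agent.S55.H23

open Polynomial Finset Module
open Fermat.Agent.S55.H84

section Restrict

variable {B : Type*} [AddCommGroup B]

/-- restriction of an endomorphism to a stable subgroup. -/
def resEnd (A : AddSubgroup B) (s : AddMonoid.End B) (h : ∀ a ∈ A, s a ∈ A) : AddMonoid.End A :=
  (AddMonoidHom.comp s A.subtype).codRestrict A (fun a => h a a.2)

theorem resEnd_apply (A : AddSubgroup B) (s : AddMonoid.End B) (h : ∀ a ∈ A, s a ∈ A) (a : A) :
    ((resEnd A s h a : A) : B) = s (a : B) := rfl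

theorem resEnd_pow_apply (A : AddSubgroup B) (s : AddMonoid.End B) (h : ∀ a ∈ A, s a ∈ A)
    (i : ℕ) (a : A) : (((resEnd A s h ^ i) a : A) : B) = (s ^ i) (a : B) := by
  induction i generalizing a with
  | zero => rfl
  | succ i ih =>
    rw [pow_succ, pow_succ, end_mul_apply, end_mul_apply, ih]
    rfl

theorem resEnd_geom (A : AddSubgroup B) (s : AddMonoid.End B) (h : ∀ a ∈ A, s a ∈ A) (p : ℕ)
    (hA : ∀ a ∈ A, (∑ i ∈ range p, s ^ i) a = 0) : ∑ i ∈ range p, resEnd A s h ^ i = 0 := by
  have key : ∀ a : A, (∑ i ∈ range p, resEnd A s h ^ i) a = (0 : AddMonoid.End A) a := by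
    intro a
    apply Subtype.ext
    rw [end_sum_apply, AddSubmonoidClass.coe_finsetSum]
    simp only [resEnd_pow_apply]
    rw [← end_sum_apply]
    exact hA a a.2
  exact DFunLike.ext _ _ key

/-- the relative index `[A : (s - 1) A]` is the index of the range of `resEnd s - 1`. -/
theorem relIndex_map_sub_one (A : AddSubgroup B) (s : AddMonoid.End B) (h : ∀ a ∈ A, s a ∈ A) :
    (A.map (s - 1 : AddMonoid.End B)).relIndex A
      = (AddMonoidHom.range (resEnd A s h - 1 : AddMonoid.End A)).index := by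
  unfold AddSubgroup.relIndex
  congr 1
  ext ⟨x, hx⟩
  rw [AddSubgroup.mem_addSubgroupOf]
  constructor
  · rintro ⟨a, ha, hax⟩
    exact ⟨⟨a, ha⟩, Subtype.ext hax⟩
  · rintro ⟨a, hax⟩
    exact ⟨a, a.2, congrArg Subtype.val hax⟩

end Restrict

section Basic

variable {B : Type*} [AddCommGroup B] (p : ℕ) (s : AddMonoid.End B)

/-- `D ∘ N = 0`. -/
theorem sub_one_geom_apply (hs : s ^ p = 1) (b : B) :
    (s - 1 : AddMonoid.End B) ((∑ i ∈ range p, s ^ i : AddMonoid.End B) b) = 0 := by
  have h : (s - 1) * ∑ i ∈ range p, s ^ i = 0 := by rw [mul_geom_sum, hs, sub_self]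
  have := congrArg (fun f : AddMonoid.End B => f b) h
  exact this

/-- `N ∘ D = 0`. -/
theorem geom_sub_one_apply (hs : s ^ p = 1) (b : B) :
    (∑ i ∈ range p, s ^ i : AddMonoid.End B) ((s - 1 : AddMonoid.End B) b) = 0 := by
  have h : (∑ i ∈ range p, s ^ i) * (s - 1) = 0 := by rw [geom_sum_mul, hs, sub_self]
  have := congrArg (fun f : AddMonoid.End B => f b) h
  exact this

/-- `N` commutes with `s`. -/
theorem geom_comm_apply (b : B) :
    (∑ i ∈ range p, s ^ i : AddMonoid.End B) (s b) = s ((∑ i ∈ range p, s ^ i : AddMonoid.End B) b) := by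
  have h : (∑ i ∈ range p, s ^ i) * s = s * ∑ i ∈ range p, s ^ i :=
    (Commute.sum_left _ _ _ fun i _ => (Commute.refl s).pow_left i).eq
  have := congrArg (fun f : AddMonoid.End B => f b) h
  exact this

/-- `s (N b) = N b`. -/
theorem apply_geom_apply (hs : s ^ p = 1) (b : B) :
    s ((∑ i ∈ range p, s ^ i : AddMonoid.End B) b) = (∑ i ∈ range p, s ^ i : AddMonoid.End B) b := by
  have := sub_one_geom_apply p s hs b
  rw [end_sub_apply, end_one_apply] at this
  exact sub_eq_zero.1 this

/-- `N (N b) = p • N b`. -/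
theorem geom_geom_apply (hs : s ^ p = 1) (b : B) :
    (∑ i ∈ range p, s ^ i : AddMonoid.End B) ((∑ i ∈ range p, s ^ i : AddMonoid.End B) b)
      = p • (∑ i ∈ range p, s ^ i : AddMonoid.End B) b :=
  end_geom_apply_of_fixed s (apply_geom_apply p s hs b) p

end Basic

section Core

variable {B : Type*} [AddCommGroup B]

/-- `s - 1` as an additive endomorphism. -/
def dHom (s : AddMonoid.End B) : B →+ B := (s - 1 : AddMonoid.End B)

/-- the norm `∑_{i<p} s^i` as an additive endomorphism. -/
def nHom (p : ℕ) (s : AddMonoid.End B) : B →+ B := (∑ i ∈ range p, s ^ i : AddMonoid.End B)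

theorem dHom_apply (s : AddMonoid.End B) (b : B) : dHom s b = s b - b := rfl

theorem nHom_apply (p : ℕ) (s : AddMonoid.End B) (b : B) :
    nHom p s b = ∑ i ∈ range p, (s ^ i) b := end_sum_apply _ _ _

variable [Module.Finite ℤ B] [Module.IsTorsionFree ℤ B]

/-- **Rank formula for the Herbrand quotient, torsion-free case.** -/
theorem torsionFree_core (p : ℕ) [hp : Fact p.Prime] (s : AddMonoid.End B) (hs : s ^ p = 1) :
    hIdx (dHom s) (nHom p s) ≠ 0 ∧ hIdx (nHom p s) (dHom s) ≠ 0 ∧
    hIdx (dHom s) (nHom p s) ^ (p - 1) * p ^ finrank ℤ B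
      = hIdx (nHom p s) (dHom s) ^ (p - 1) * p ^ (p * finrank ℤ (nHom p s).range) := by
  have hp0 : p ≠ 0 := hp.out.ne_zero
  set D := dHom s with hD
  set N := nHom p s with hN
  set K : AddSubgroup B := N.ker with hK
  have hDN : ∀ b, D (N b) = 0 := sub_one_geom_apply p s hs
  have hND : ∀ b, N (D b) = 0 := geom_sub_one_apply p s hs
  have hNN : ∀ b, N (N b) = p • N b := geom_geom_apply p s hs
  have htf : ∀ b : B, p • b = 0 → b = 0 := by
    intro b hb
    have hinj := AddSubgroup.nsmulAddMonoidHom_injective_of_isTorsionFree (M := B) hp0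
    apply hinj; simpa using hb
  have hfix : ∀ b, D b = 0 → N b = p • b := by
    intro b hb
    have hb' : s b = b := sub_eq_zero.1 hb
    exact end_geom_apply_of_fixed s hb' p
  have hKD : ∀ a ∈ K, D a ∈ K := fun a _ => hND a
  have hKN : ∀ a ∈ K, N a ∈ K := fun a ha => by
    rw [hK, AddMonoidHom.mem_ker] at ha ⊢; rw [ha, map_zero]
  have hKs : ∀ a ∈ K, s a ∈ K := fun a ha => by
    rw [hK, AddMonoidHom.mem_ker] at ha ⊢
    have h1 : N (s a) = s (N a) := geom_comm_apply p s a
    rw [h1, ha]; exact map_zero s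
  -- Herbrand's lemma for the subgroup `K = ker N`
  have H := hIdx_mul_internal K hDN hND hKD hKN
  have e1 : hIdxSub K D N = 1 := by
    unfold hIdxSub
    have h1 : K.map N = ⊥ := by
      rw [eq_bot_iff]; rintro _ ⟨a, ha, rfl⟩; exact ha
    have h2 : D.ker ⊓ K = ⊥ := by
      rw [eq_bot_iff]; rintro b ⟨hb1, hb2⟩
      have hb3 : p • b = 0 := by rw [← hfix b hb1]; exact hb2
      exact htf b hb3
    rw [h1, h2, AddSubgroup.relIndex_self]
  have e2 : hIdxQuot K D N = (N.range ⊔ K).index := by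
    unfold hIdxQuot
    have h1 : K.comap D = ⊤ := by
      rw [eq_top_iff]; intro b _; exact hND b
    rw [h1, AddSubgroup.relIndex_top_right]
  have e3 : hIdxSub K N D = (K.map D).relIndex K := by
    unfold hIdxSub
    rw [inf_idem]
  have e4 : hIdxQuot K N D = 1 := by
    unfold hIdxQuot
    have h1 : D.range ⊔ K = K := sup_eq_right.2 (by rintro _ ⟨b, rfl⟩; exact hND b)
    have h2 : K.comap N = K := by
      ext b; constructor
      · intro hb
        have hb' : p • N b = 0 := by rw [← hNN]; exact hb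
        exact htf _ hb'
      · intro hb; exact hKN b hb
    rw [h1, h2, AddSubgroup.relIndex_self]
  have e5 : (N.range ⊔ K).index = p ^ finrank ℤ N.range := by
    have h := AddSubgroup.relIndex_map_map N N.range ⊤
    rw [top_sup_eq, AddSubgroup.relIndex_top_right, ← AddMonoidHom.range_eq_map] at h
    rw [← h]
    have hm : N.range.map N = N.range.map (nsmulAddMonoidHom (α := B) p) := by
      ext x; constructor
      · rintro ⟨_, ⟨b, rfl⟩, rfl⟩; exact ⟨N b, ⟨b, rfl⟩, (hNN b).symm⟩
      · rintro ⟨_, ⟨b, rfl⟩, rfl⟩; exact ⟨N b, ⟨b, rfl⟩, hNN b⟩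
    rw [hm]
    exact AddSubgroup.relIndex_map_nsmul p N.range
  have e6 : ((K.map D).relIndex K) ^ (p - 1) = p ^ finrank ℤ K := by
    have : Module.Finite ℤ K := inferInstanceAs (Module.Finite ℤ (AddSubgroup.toIntSubmodule K))
    have : Module.IsTorsionFree ℤ K :=
      inferInstanceAs (Module.IsTorsionFree ℤ (AddSubgroup.toIntSubmodule K))
    have h1 := relIndex_map_sub_one K s hKs
    have hgeom := resEnd_geom K s hKs p (fun a ha => ha)
    have h2 := index_range_sub_one_pow p (resEnd K s hKs) hgeom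
    rw [← h1] at h2
    exact h2
  have hrank : finrank ℤ K + finrank ℤ N.range = finrank ℤ B := by
    have h1 := (LinearMap.ker N.toIntLinearMap).finrank_quotient_add_finrank
    have h2 := (N.toIntLinearMap.quotKerEquivRange).finrank_eq
    have h3 : finrank ℤ (LinearMap.range N.toIntLinearMap) = finrank ℤ N.range := rfl
    have h4 : finrank ℤ (LinearMap.ker N.toIntLinearMap) = finrank ℤ K := rfl
    omega
  have hh0 : hIdx D N ≠ 0 := by
    unfold hIdx
    have hle1 : D.ker.map (nsmulAddMonoidHom (α := B) p) ≤ N.range := by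
      rintro _ ⟨b, hb, rfl⟩; exact ⟨b, hfix b hb⟩
    have hle2 : N.range ≤ D.ker := by rintro _ ⟨b, rfl⟩; exact hDN b
    have h := AddSubgroup.relIndex_mul_relIndex _ _ _ hle1 hle2
    have h' := AddSubgroup.relIndex_map_nsmul p D.ker
    rw [h'] at h
    intro h0; rw [h0, mul_zero] at h
    exact (pow_ne_zero _ hp0) h.symm
  rw [e1, e2, e3, e4, e5] at H
  have hp1 : p - 1 ≠ 0 := by have := hp.out.two_le; omega
  have hκ : (K.map D).relIndex K ≠ 0 := by
    intro h; rw [h, zero_pow hp1] at e6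
    exact (pow_ne_zero _ hp0) e6.symm
  have H' : p ^ finrank ℤ N.range * hIdx N D = (K.map D).relIndex K * hIdx D N := by
    simpa using H
  have hh1 : hIdx N D ≠ 0 := by
    intro h; rw [h, mul_zero] at H'
    exact (mul_ne_zero hκ hh0) H'.symm
  refine ⟨hh0, hh1, ?_⟩
  have hpp : p * finrank ℤ N.range = finrank ℤ N.range * (p - 1) + finrank ℤ N.range := by
    conv_lhs => rw [show p = (p - 1) + 1 by omega]
    ring
  calc hIdx D N ^ (p - 1) * p ^ finrank ℤ B
      = hIdx D N ^ (p - 1) * (p ^ finrank ℤ K * p ^ finrank ℤ N.range) := by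
        rw [← hrank, pow_add]
    _ = ((K.map D).relIndex K * hIdx D N) ^ (p - 1) * p ^ finrank ℤ N.range := by
        rw [mul_pow, e6]; ring
    _ = (p ^ finrank ℤ N.range * hIdx N D) ^ (p - 1) * p ^ finrank ℤ N.range := by rw [H']
    _ = hIdx N D ^ (p - 1) * p ^ (p * finrank ℤ N.range) := by
        rw [hpp, pow_add, mul_pow, ← pow_mul]; ring

end Core

end Fermat.Agent.S55.H23
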