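/-
S55 (Poitou–Tate), package C6 (first inequality), helper23.

**Rank formula for the Herbrand quotient of a finitely generated `ℤ[C_p]`-module.**

`B` a finitely generated abelian group (torsion allowed), `s` an endomorphism with `s ^ p = 1`
(`p` prime), `D = s - 1`, `N = ∑_{i<p} s^i`, `h₀ = [ker D : im N]`, `h₁ = [ker N : im D]`
(helper84's `hIdx`).  Then `h₀ ≠ 0`, `h₁ ≠ 0` and

  `h₀^(p-1) · p^(rank B) = h₁^(p-1) · p^(p · rank (ker D))`,

i.e. the Herbrand quotient is `p^((p · rank B^G - rank B)/(p-1))`: it depends only on the ranks of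
`B` and of its invariants.  For the `S`-units of a cyclic extension of degree `p` this gives
`h = p^(#{non-split v ∈ S} - 1)` from the `S`-unit rank theorem alone.
-/
import Mathlib
import Fermat.Agent.S55.H84.Herbrand
import Fermat.Agent.S55.H23.RankHerbrandCore

set_option autoImplicit false

namespace Fermat.Agent.S55.H23

open Polynomial Finset Module
open Fermat.Agent.S55.H84

section Ranks

variable {M M' : Type*} [AddCommGroup M] [AddCommGroup M'] [Module.Finite ℤ M]

/-- a `ℤ`-linear map with torsion kernel preserves the rank of its source. -/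
theorem finrank_range_of_torsion_ker (g : M →ₗ[ℤ] M')
    (hker : ∀ x, g x = 0 → ∃ n : ℤ, n ≠ 0 ∧ n • x = 0) :
    finrank ℤ (LinearMap.range g) = finrank ℤ M := by
  have h1 := (LinearMap.ker g).finrank_quotient_add_finrank
  have h2 := g.quotKerEquivRange.finrank_eq
  have h3 : finrank ℤ (LinearMap.ker g) = 0 := by
    rw [Module.finrank_eq_zero_iff]
    rintro ⟨x, hx⟩
    obtain ⟨n, hn, hnx⟩ := hker x hx
    exact ⟨n, hn, Subtype.ext hnx⟩
  omega

/-- two subgroups `A ≤ C` with `n • C ≤ A` (`n ≠ 0`) have the same rank. -/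
theorem finrank_eq_of_nsmul_mem (A C : AddSubgroup M) (hAC : A ≤ C) (n : ℕ) (hn : n ≠ 0)
    (h : ∀ c ∈ C, n • c ∈ A) : finrank ℤ A = finrank ℤ C := by
  apply le_antisymm
  · exact Submodule.finrank_mono (s := AddSubgroup.toIntSubmodule A)
      (t := AddSubgroup.toIntSubmodule C) hAC
  · set g : (AddSubgroup.toIntSubmodule C) →ₗ[ℤ] M :=
      (n : ℤ) • (AddSubgroup.toIntSubmodule C).subtype with hg
    have hr := finrank_range_of_torsion_ker g (by
      rintro ⟨x, hx⟩ hgx
      refine ⟨(n : ℤ), by exact_mod_cast hn, Subtype.ext ?_⟩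
      simpa [hg] using hgx)
    have hle : LinearMap.range g ≤ AddSubgroup.toIntSubmodule A := by
      rintro _ ⟨⟨x, hx⟩, rfl⟩
      have h1 : g ⟨x, hx⟩ = n • x := by simp [hg]
      rw [h1]
      exact h x hx
    have := Submodule.finrank_mono hle
    calc finrank ℤ C = finrank ℤ (LinearMap.range g) := hr.symm
      _ ≤ finrank ℤ A := this

end Ranks

section Main

variable {B : Type*} [AddCommGroup B]

/-- an additive endomorphism preserves the torsion submodule. -/
theorem map_mem_torsion (f : B →+ B) {x : B} (hx : x ∈ Submodule.torsion ℤ B) :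
    f x ∈ Submodule.torsion ℤ B := by
  rw [Submodule.mem_torsion_iff] at hx ⊢
  obtain ⟨a, ha⟩ := hx
  refine ⟨a, ?_⟩
  rw [Submonoid.smul_def] at ha ⊢
  rw [← map_zsmul, ha, map_zero]

/-- the endomorphism induced on `B ⧸ torsion`. -/
noncomputable def quotEnd (s : AddMonoid.End B) : AddMonoid.End (B ⧸ Submodule.torsion ℤ B) :=
  ((Submodule.torsion ℤ B).mapQ (Submodule.torsion ℤ B) (AddMonoidHom.toIntLinearMap s)
    (fun _ hx => map_mem_torsion s hx)).toAddMonoidHom

theorem quotEnd_mk (s : AddMonoid.End B) (b : B) :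
    quotEnd s (Submodule.Quotient.mk b) = Submodule.Quotient.mk (s b) := rfl

theorem quotEnd_pow_mk (s : AddMonoid.End B) (i : ℕ) (b : B) :
    (quotEnd s ^ i) (Submodule.Quotient.mk b) = Submodule.Quotient.mk ((s ^ i) b) := by
  induction i generalizing b with
  | zero => rfl
  | succ i ih => rw [pow_succ, pow_succ, end_mul_apply, end_mul_apply, quotEnd_mk, ih]

theorem quotEnd_pow_eq_one (s : AddMonoid.End B) (p : ℕ) (hs : s ^ p = 1) : quotEnd s ^ p = 1 := by
  refine DFunLike.ext _ _ fun x => ?_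
  obtain ⟨b, rfl⟩ := Submodule.Quotient.mk_surjective _ x
  rw [quotEnd_pow_mk, hs]
  rfl

variable [Module.Finite ℤ B]

/-- **Rank formula for the Herbrand quotient** of a finitely generated abelian group with an
endomorphism `s`, `s ^ p = 1`, `p` prime: with `D = s - 1`, `N = ∑_{i<p} s^i`,
`[ker D : im N]^(p-1) · p^(rank B) = [ker N : im D]^(p-1) · p^(p · rank (ker D))`, both indices
finite. -/
theorem rankHerbrand (p : ℕ) [hp : Fact p.Prime] (s : AddMonoid.End B) (hs : s ^ p = 1) :
    hIdx (dHom s) (nHom p s) ≠ 0 ∧ hIdx (nHom p s) (dHom s) ≠ 0 ∧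
    hIdx (dHom s) (nHom p s) ^ (p - 1) * p ^ finrank ℤ B
      = hIdx (nHom p s) (dHom s) ^ (p - 1) * p ^ (p * finrank ℤ (dHom s).ker) := by
  have hp0 : p ≠ 0 := hp.out.ne_zero
  set T := Submodule.torsion ℤ B with hT
  set s' := quotEnd s with hs'
  have hs'p : s' ^ p = 1 := quotEnd_pow_eq_one s p hs
  obtain ⟨c0, c1, c2⟩ := torsionFree_core p s' hs'p
  set π : B →+ B ⧸ T := T.mkQ.toAddMonoidHom with hπ
  have hπs : Function.Surjective π := Submodule.mkQ_surjective T
  have hπD : ∀ b, π (dHom s b) = dHom s' (π b) := fun b => rfl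
  have hπN : ∀ b, π (nHom p s b) = nHom p s' (π b) := by
    intro b
    rw [nHom_apply, nHom_apply, map_sum]
    refine Finset.sum_congr rfl fun i _ => ?_
    exact (quotEnd_pow_mk s i b).symm
  set TA : AddSubgroup B := T.toAddSubgroup with hTA
  have hTfin : Finite TA := Module.finite_of_fg_torsion T (Submodule.torsion_isTorsion)
  have hTD : ∀ a ∈ TA, dHom s a ∈ TA := fun a ha => map_mem_torsion _ ha
  have hTN : ∀ a ∈ TA, nHom p s a ∈ TA := fun a ha => map_mem_torsion _ ha
  set fA : TA →+ TA := resEnd TA (dHom s) hTD with hfA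
  set gA : TA →+ TA := resEnd TA (nHom p s) hTN with hgA
  have hDN : ∀ b, dHom s (nHom p s b) = 0 := sub_one_geom_apply p s hs
  have hND : ∀ b, nHom p s (dHom s b) = 0 := geom_sub_one_apply p s hs
  have hfgA : ∀ a, fA (gA a) = 0 := fun a => Subtype.ext (hDN a)
  have hgfA : ∀ a, gA (fA a) = 0 := fun a => Subtype.ext (hND a)
  obtain ⟨t1, t2⟩ := hIdx_eq_of_finite hfgA hgfA
  have hex : TA.subtype.range = π.ker := by
    rw [AddSubgroup.range_subtype]
    ext x
    rw [AddMonoidHom.mem_ker]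
    exact (Submodule.Quotient.mk_eq_zero T).symm
  have Hm := hIdx_mul_of_exact (i := TA.subtype) (π := π) (fA := fA) (gA := gA)
    (fB := dHom s) (gB := nHom p s) (fC := dHom s') (gC := nHom p s')
    Subtype.val_injective hπs hex (fun _ => rfl) (fun _ => rfl) hπD hπN hDN hND
  have Hne := hIdx_ne_zero_of_exact (i := TA.subtype) (π := π) (fA := fA) (gA := gA)
    (fB := dHom s) (gB := nHom p s) (fC := dHom s') (gC := nHom p s')
    Subtype.val_injective hπs hex (fun _ => rfl) (fun _ => rfl) hπD hπN hDN hND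
    t2 (t1 ▸ t2) c0 c1
  refine ⟨Hne.1, Hne.2, ?_⟩
  -- ranks
  have hr : finrank ℤ (B ⧸ T) = finrank ℤ B := by
    have h1 := T.finrank_quotient_add_finrank
    have h2 : finrank ℤ T = 0 := by
      rw [Module.finrank_eq_zero_iff]
      rintro ⟨x, hx⟩
      obtain ⟨a, ha⟩ := (Submodule.mem_torsion_iff x).1 hx
      exact ⟨(a : ℤ), nonZeroDivisors.coe_ne_zero a, Subtype.ext ha⟩
    omega
  have hfix : ∀ b, dHom s b = 0 → nHom p s b = p • b := by
    intro b hb
    have hb' : s b = b := sub_eq_zero.1 hb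
    exact end_geom_apply_of_fixed s hb' p
  have hr1 : finrank ℤ (nHom p s).range = finrank ℤ (dHom s).ker :=
    finrank_eq_of_nsmul_mem (nHom p s).range (dHom s).ker
      (by rintro _ ⟨b, rfl⟩; exact hDN b) p hp0 (fun c hc => ⟨c, hfix c hc⟩)
  have hr2 : finrank ℤ (nHom p s').range = finrank ℤ (nHom p s).range := by
    set g : (AddSubgroup.toIntSubmodule (nHom p s).range) →ₗ[ℤ] B ⧸ T :=
      T.mkQ.comp (AddSubgroup.toIntSubmodule (nHom p s).range).subtype with hg
    have hr := finrank_range_of_torsion_ker g (by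
      rintro ⟨x, hx⟩ hgx
      have hxT : x ∈ T := (Submodule.Quotient.mk_eq_zero T).1 hgx
      obtain ⟨a, ha⟩ := (Submodule.mem_torsion_iff x).1 hxT
      exact ⟨(a : ℤ), nonZeroDivisors.coe_ne_zero a, Subtype.ext ha⟩)
    have hrange : LinearMap.range g = AddSubgroup.toIntSubmodule (nHom p s').range := by
      ext y
      constructor
      · rintro ⟨⟨_, ⟨b, rfl⟩⟩, rfl⟩
        exact ⟨π b, (hπN b).symm⟩
      · rintro ⟨b', rfl⟩
        obtain ⟨b, rfl⟩ := hπs b'
        exact ⟨⟨nHom p s b, ⟨b, rfl⟩⟩, hπN b⟩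
    rw [hrange] at hr
    exact hr
  rw [hr, hr2, hr1] at c2
  -- cancel the finite torsion part
  have Hc : hIdx (dHom s') (nHom p s') * hIdx (nHom p s) (dHom s)
      = hIdx (nHom p s') (dHom s') * hIdx (dHom s) (nHom p s) := by
    rw [← t1] at Hm
    have e : hIdx fA gA * (hIdx (dHom s') (nHom p s') * hIdx (nHom p s) (dHom s))
        = hIdx fA gA * (hIdx (nHom p s') (dHom s') * hIdx (dHom s) (nHom p s)) := by
      rw [← mul_assoc, ← mul_assoc]; exact Hm
    exact Nat.eq_of_mul_eq_mul_left (Nat.pos_of_ne_zero t2) e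
  have hy1 : 0 < hIdx (nHom p s') (dHom s') ^ (p - 1) := Nat.pos_of_ne_zero (pow_ne_zero _ c1)
  apply Nat.eq_of_mul_eq_mul_left hy1
  calc hIdx (nHom p s') (dHom s') ^ (p - 1) * (hIdx (dHom s) (nHom p s) ^ (p - 1) * p ^ finrank ℤ B)
      = (hIdx (nHom p s') (dHom s') * hIdx (dHom s) (nHom p s)) ^ (p - 1) * p ^ finrank ℤ B := by
        rw [mul_pow]; ring
    _ = (hIdx (dHom s') (nHom p s') * hIdx (nHom p s) (dHom s)) ^ (p - 1) * p ^ finrank ℤ B := by
        rw [Hc]
    _ = hIdx (nHom p s) (dHom s) ^ (p - 1)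
          * (hIdx (dHom s') (nHom p s') ^ (p - 1) * p ^ finrank ℤ B) := by
        rw [mul_pow]; ring
    _ = hIdx (nHom p s) (dHom s) ^ (p - 1)
          * (hIdx (nHom p s') (dHom s') ^ (p - 1) * p ^ (p * finrank ℤ (dHom s).ker)) := by
        rw [c2]
    _ = _ := by ring

end Main

end Fermat.Agent.S55.H23
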