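/-
S55 (Poitou–Tate), package C6 (first inequality), helper23.

The rank formula `rankHerbrand` for the Herbrand quotient, in the vocabulary of representations of
a cyclic group of prime order `p` (helper84's `subHom`, `normHom`) and of group cohomology:

  `#H²(G, A)^(p-1) · p^(rank A) = #H¹(G, A)^(p-1) · p^(p · rank A^G)`

for a `ℤ[G]`-module `A` finitely generated over `ℤ`.
-/
import Mathlib
import Fermat.Agent.S55.H84.HerbrandCyclic
import Fermat.Agent.S55.H23.RankHerbrand

set_option autoImplicit false

namespace Fermat.Agent.S55.H23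

open Finset Module
open Fermat.Agent.S55.H84

section Rep

variable {G : Type} [CommGroup G] [Fintype G] (A : Rep.{0, 0, 0} ℤ G) (g : G)

/-- the action of `g` as an additive endomorphism. -/
noncomputable def repEnd : AddMonoid.End A.V := (A.ρ g).toAddMonoidHom

omit [Fintype G] in
theorem repEnd_apply (a : A.V) : repEnd A g a = A.ρ g a := rfl

omit [Fintype G] in
theorem repEnd_pow_apply (i : ℕ) (a : A.V) : (repEnd A g ^ i) a = A.ρ (g ^ i) a := by
  induction i generalizing a with
  | zero => simp
  | succ i ih =>
    rw [pow_succ, end_mul_apply, ih, repEnd_apply, pow_succ, map_mul]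
    rfl

omit [Fintype G] in
theorem dHom_repEnd : dHom (repEnd A g) = subHom A g := by
  refine AddMonoidHom.ext fun a => ?_
  rw [dHom_apply, subHom_apply, repEnd_apply]

variable {g} (hg : ∀ x, x ∈ Subgroup.zpowers g)

include hg in
theorem nHom_repEnd : nHom (Nat.card G) (repEnd A g) = normHom A := by
  classical
  refine AddMonoidHom.ext fun a => ?_
  rw [nHom_apply, H84.normHom_apply]
  simp only [repEnd_pow_apply]
  rw [← IsCyclic.image_range_card hg, Finset.sum_image]
  intro i hi j hj hij
  rw [Finset.coe_range, Set.mem_Iio] at hi hj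
  have ho : orderOf g = Nat.card G := orderOf_eq_card_of_forall_mem_zpowers hg
  rw [← ho] at hi hj
  exact pow_injOn_Iio_orderOf hi hj hij

omit [Fintype G] in
theorem repEnd_pow_card : repEnd A g ^ Nat.card G = 1 := by
  refine DFunLike.ext _ _ fun a => ?_
  rw [repEnd_pow_apply, pow_card_eq_one', map_one]
  rfl

variable [Module.Finite ℤ A.V]

include hg in
/-- **Rank formula**, abstract indices: for `G` cyclic of prime order `p` and a `ℤ[G]`-module `A`
finitely generated over `ℤ`. -/
theorem hIdx_rep_pow_mul (p : ℕ) [Fact p.Prime] (hG : Nat.card G = p) :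
    hIdx (subHom A g) (normHom A) ≠ 0 ∧ hIdx (normHom A) (subHom A g) ≠ 0 ∧
    hIdx (subHom A g) (normHom A) ^ (p - 1) * p ^ finrank ℤ A.V
      = hIdx (normHom A) (subHom A g) ^ (p - 1) * p ^ (p * finrank ℤ (subHom A g).ker) := by
  have hs : repEnd A g ^ p = 1 := hG ▸ repEnd_pow_card A (g := g)
  have h := rankHerbrand p (repEnd A g) hs
  rw [dHom_repEnd, ← hG, nHom_repEnd A hg] at h
  rw [← hG]
  exact h

include hg in
/-- **Rank formula for the Herbrand quotient** in group cohomology:
`#H²(G, A)^(p-1) · p^(rank A) = #H¹(G, A)^(p-1) · p^(p · rank ker(g - 1))`, both finite. -/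
theorem natCard_H2_pow_mul (p : ℕ) [Fact p.Prime] (hG : Nat.card G = p) :
    Nat.card (groupCohomology A 2) ≠ 0 ∧ Nat.card (groupCohomology A 1) ≠ 0 ∧
    Nat.card (groupCohomology A 2) ^ (p - 1) * p ^ finrank ℤ A.V
      = Nat.card (groupCohomology A 1) ^ (p - 1) * p ^ (p * finrank ℤ (subHom A g).ker) := by
  rw [natCard_groupCohomology_even A g hg 2 (by decide),
    natCard_groupCohomology_odd A g hg 1 (by decide)]
  exact hIdx_rep_pow_mul A hg p hG

end Rep

end Fermat.Agent.S55.H23
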